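/-
helper93, row 38 (S44 / S39 / S40: remove `p` from the level, Mazur-Ribet).

Interfaces for the wiring `Fermat/Agent/S44/Wiring.lean`.  Everything here is a definition or a
`Prop`-valued statement; nothing deep is claimed.  Plan: `NOTES/plan/L_S44.md`.

* `HeckeGaloisModule p` : a `ZMod p`-module `J` with an action of the absolute Galois group of `ℚ`
  and operators `T ℓ`.  The intended model is `J₀(N)(ℚ̄)[p]`.
* `HeckeGaloisModule.IsContinuous`, `.EichlerShimura N`, `.HasSupport N` : the mod `p` Tate package.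
* `IsFiniteAt p A ρ` : Galois-theoretic form of "finite (peu ramifiée) at `p`" for a module with an
  inertia-stable line: inertia acts by the cyclotomic character on the line `L`, trivially on the
  quotient, and the whole action of inertia dies over `ℚ_p^nr(μ_p, u^(1/p))`, `u` a `p`-adic unit.
* `HeckeGaloisModule.RemovesP N A` : Mazur's principle at `p` in module form.
* `Stmt_Module`, `Stmt_Recovery`, `Stmt_FreyFiniteAtP`, `Stmt_PlaceOver`, `Stmt_NonEis` : the work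
  packages (A, B, C, D, E).
-/
import Mathlib
import Fermat.Prelude.Def_FLTPrelim_FreyPackage
import Fermat.Prelude.Def_FLTPrelim_GaloisRep
import Fermat.Prelude.Def_FLTPrelim_Modularity
import Fermat.Prelude.Def_FLTPrelim_ModularRep
import Fermat.Prelude.Def_FLTPrelim_Ramification
import Fermat.Prelude.Def_EllipticCurve_FrobeniusTrace
import Fermat.Prelude.Def_FreyPackage_IsConductorLevel

set_option autoImplicit false

open WeierstrassCurve WeierstrassCurve.Affine WeierstrassCurve.Affine.Point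
open scoped WeierstrassCurve.Affine

namespace Fermat.Agent.S44

/-- The absolute Galois group of `ℚ`. -/
abbrev GQ : Type := AlgebraicClosure ℚ ≃ₐ[ℚ] AlgebraicClosure ℚ

/-- The ring of all algebraic integers (inside `ℂ`). -/
abbrev ZBar : Type := integralClosure ℤ ℂ

/-- A mod `p` Hecke-Galois module: the intended model is `J₀(N)(ℚ̄)[p]` with the operators
`T ℓ` (only the `ℓ ∤ N p` are ever used). -/
structure HeckeGaloisModule (p : ℕ) where
  /-- the underlying group -/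
  J : Type
  [instAddCommGroup : AddCommGroup J]
  [instModule : Module (ZMod p) J]
  /-- the Galois action -/
  gal : GQ →* Module.End (ZMod p) J
  /-- the Hecke operators -/
  T : ℕ → Module.End (ZMod p) J

attribute [instance] HeckeGaloisModule.instAddCommGroup HeckeGaloisModule.instModule

namespace HeckeGaloisModule

variable {p : ℕ} (H : HeckeGaloisModule p)

/-- The module is finite, the Galois action factors through a finite extension of `ℚ`, and the
Hecke operators commute with each other and with the Galois action. -/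
def IsContinuous : Prop :=
  Finite H.J ∧
  (∃ F : IntermediateField ℚ (AlgebraicClosure ℚ), FiniteDimensional ℚ F ∧
    ∀ σ : GQ, (∀ x ∈ F, σ x = x) → H.gal σ = 1) ∧
  (∀ ℓ ℓ' : ℕ, H.T ℓ * H.T ℓ' = H.T ℓ' * H.T ℓ) ∧
  (∀ (σ : GQ) (ℓ : ℕ), H.gal σ * H.T ℓ = H.T ℓ * H.gal σ)

/-- Unramified outside `N p`, and the Eichler-Shimura relation `F² - T_ℓ F + ℓ = 0` for every
Frobenius element at a prime `ℓ ∤ N p`. -/
def EichlerShimura (N : ℕ) : Prop :=
  ∀ ℓ : ℕ, ℓ.Prime → ¬ ℓ ∣ N * p →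
    ∀ A : ValuationSubring (AlgebraicClosure ℚ), A.LiesOverPrime ℓ →
      (∀ σ ∈ A.inertiaSubgroupIn ℚ, H.gal σ = 1) ∧
      ∀ σ : GQ, A.IsFrobeniusAt σ ℓ →
        H.gal σ * H.gal σ - H.T ℓ * H.gal σ + (ℓ : ZMod p) • (1 : Module.End (ZMod p) H.J) = 0

/-- Every eigenform of level `N` occurs in `J`: if the eigenvalues `a_ℓ(f)` are congruent to
integers `t ℓ` modulo a maximal ideal over `p` for all primes `ℓ ∤ N p` outside a finite set `S`,
then the operators `T ℓ`, `ℓ ∉ S`, have a common eigenvector in `J` with eigenvalues `t ℓ`. -/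
def HasSupport (N : ℕ) : Prop :=
  ∀ (f : CuspForm (CongruenceSubgroup.Gamma0 N) 2) (𝔪 : Ideal ZBar) (S : Finset ℕ) (t : ℕ → ℤ),
    f.IsNormalizedEigenform → 𝔪.IsMaximal → (p : ZBar) ∈ 𝔪 →
    (∀ ℓ : ℕ, ℓ.Prime → ℓ ∉ S → ¬ ℓ ∣ N → ℓ ≠ p →
      ∃ a : ZBar, (a : ℂ) = ModularFormClass.qCoeff f ℓ ∧ a - ((t ℓ : ℤ) : ZBar) ∈ 𝔪) →
    ∃ x : H.J, x ≠ 0 ∧
      ∀ ℓ : ℕ, ℓ.Prime → ℓ ∉ S → ¬ ℓ ∣ N → ℓ ≠ p → H.T ℓ x = ((t ℓ : ℤ) : ZMod p) • x

end HeckeGaloisModule

/-- **Finite (peu ramifiée) at `p`**, in Galois-theoretic form, for a module over `ZMod p` with an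
action of `GQ`, with respect to a place `A` of `ℚ̄` over `p`: there is a proper submodule `L` on
which inertia acts through the mod `p` cyclotomic character, inertia acts trivially on the
quotient, and inertia acts trivially altogether after adjoining `μ_p` and the `p`-th roots of an
integer `u` prime to `p`. -/
def IsFiniteAt (p : ℕ) (A : ValuationSubring (AlgebraicClosure ℚ))
    {V : Type} [AddCommGroup V] [Module (ZMod p) V] (ρ : GQ →* Module.End (ZMod p) V) : Prop :=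
  ∃ L : Submodule (ZMod p) V, L ≠ ⊤ ∧
    (∀ σ ∈ A.inertiaSubgroupIn ℚ, ∀ n : ℕ,
      (∀ ζ : AlgebraicClosure ℚ, ζ ^ p = 1 → σ ζ = ζ ^ n) →
        ∀ x ∈ L, ρ σ x = (n : ZMod p) • x) ∧
    (∀ σ ∈ A.inertiaSubgroupIn ℚ, ∀ x : V, ρ σ x - x ∈ L) ∧
    ∃ u : ℤ, ¬ (p : ℤ) ∣ u ∧
      ∀ σ ∈ A.inertiaSubgroupIn ℚ,
        (∀ ζ : AlgebraicClosure ℚ, ζ ^ p = 1 → σ ζ = ζ) →
        (∀ z : AlgebraicClosure ℚ, z ^ p = (u : AlgebraicClosure ℚ) → σ z = z) →
          ∀ x : V, ρ σ x = x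

/-- **Mazur's principle at `p`, module form.**  `J` is the Hecke-Galois module of level `N`,
`p ∥ N`.  If an irreducible two-dimensional Galois module `V` which is finite at `p` embeds
Galois-equivariantly into `J`, and the Hecke operators `T ℓ` (`ℓ` outside a finite set `S`) act
on the image through integers `t ℓ`, and the system `t` is not Eisenstein (`t ℓ ≠ 1 + ℓ` for some
`ℓ`), then the system `t` comes from an eigenform of level `N / p`. -/
def HeckeGaloisModule.RemovesP {p : ℕ} (H : HeckeGaloisModule p) (N : ℕ)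
    (A : ValuationSubring (AlgebraicClosure ℚ)) : Prop :=
  ∀ (V : Type) [AddCommGroup V] [Module (ZMod p) V] (ρ : GQ →* Module.End (ZMod p) V)
    (ι : V →ₗ[ZMod p] H.J) (S : Finset ℕ) (t : ℕ → ℤ),
    Module.finrank (ZMod p) V = 2 →
    (∀ W : Submodule (ZMod p) V, (∀ σ : GQ, ∀ x ∈ W, ρ σ x ∈ W) → W = ⊥ ∨ W = ⊤) →
    IsFiniteAt p A ρ →
    Function.Injective ι →
    (∀ (σ : GQ) (v : V), ι (ρ σ v) = H.gal σ (ι v)) →
    (∀ ℓ : ℕ, ℓ.Prime → ℓ ∉ S → ¬ ℓ ∣ N → ℓ ≠ p →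
      ∀ v : V, H.T ℓ (ι v) = ((t ℓ : ℤ) : ZMod p) • ι v) →
    (∃ ℓ : ℕ, ℓ.Prime ∧ ℓ ∉ S ∧ ¬ ℓ ∣ N ∧ ℓ ≠ p ∧ ((t ℓ : ℤ) : ZMod p) ≠ 1 + (ℓ : ZMod p)) →
    ∃ (g : CuspForm (CongruenceSubgroup.Gamma0 (N / p)) 2) (𝔪 : Ideal ZBar),
      g.IsNormalizedEigenform ∧ 𝔪.IsMaximal ∧ (p : ZBar) ∈ 𝔪 ∧
      ∀ ℓ : ℕ, ℓ.Prime → ℓ ∉ S → ¬ ℓ ∣ N → ℓ ≠ p →
        ∃ a : ZBar, (a : ℂ) = ModularFormClass.qCoeff g ℓ ∧ a - ((t ℓ : ℤ) : ZBar) ∈ 𝔪

/-- The `p`-torsion of an elliptic curve over `ℚ`, as a Galois module. -/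
abbrev Tors (E : WeierstrassCurve ℚ) (p : ℕ) : Type :=
  Submodule.torsionBy ℤ (E.toAffine⁄(AlgebraicClosure ℚ)).Point p

/-- **Package A (geometry).**  For an odd prime `p`, a level `N` with `p ∥ N` and a place `A` of
`ℚ̄` over `p` there is a Hecke-Galois module of level `N` (namely `J₀(N)(ℚ̄)[p]`) which is
continuous, satisfies Eichler-Shimura, supports all eigenforms of level `N`, and satisfies Mazur's
principle at `p`. -/
def Stmt_Module : Prop :=
  ∀ (p : ℕ), p.Prime → p ≠ 2 → ∀ (N : ℕ), 0 < N → p ∣ N → ¬ p ^ 2 ∣ N →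
    ∀ A : ValuationSubring (AlgebraicClosure ℚ), A.LiesOverPrime p →
      ∃ H : HeckeGaloisModule p,
        H.IsContinuous ∧ H.EichlerShimura N ∧ H.HasSupport N ∧ H.RemovesP N A

/-- **Package B (congruence recovery: Boston-Lenstra-Ribet + Frobenius density + `a_ℓ` = trace of
Frobenius).**  If the system `ℓ ↦ a_ℓ(W) mod p` occurs in a continuous Hecke-Galois module
satisfying Eichler-Shimura and `E[p]` is irreducible, then `E[p]` embeds Galois-equivariantly into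
the corresponding eigenspace.  (`0 < N` is needed: for `N = 0` the hypotheses are vacuous.) -/
def Stmt_Recovery : Prop :=
  ∀ (p : ℕ), p.Prime → p ≠ 2 → ∀ (N : ℕ), 0 < N → ∀ (H : HeckeGaloisModule p),
    H.IsContinuous → H.EichlerShimura N →
    ∀ (E : WeierstrassCurve ℚ) (W : WeierstrassCurve ℤ), W.IsIntegralModelOf E →
      GaloisRepIsIrreducible (K := AlgebraicClosure ℚ) ℚ E.toAffine p →
      ∀ (S : Finset ℕ),
        (∀ ℓ : ℕ, ℓ.Prime → ℓ ∉ S → W.IsGoodPrimeFor ℓ) →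
        ∀ x : H.J, x ≠ 0 →
          (∀ ℓ : ℕ, ℓ.Prime → ℓ ∉ S → ¬ ℓ ∣ N → ℓ ≠ p →
            H.T ℓ x = ((W.apOfModel ℓ : ℤ) : ZMod p) • x) →
          ∃ ι : Tors E p →ₗ[ZMod p] H.J, Function.Injective ι ∧
            (∀ (σ : GQ) (v : Tors E p), ι (σ • v) = H.gal σ (ι v)) ∧
            ∀ ℓ : ℕ, ℓ.Prime → ℓ ∉ S → ¬ ℓ ∣ N → ℓ ≠ p →
              ∀ v : Tors E p, H.T ℓ (ι v) = ((W.apOfModel ℓ : ℤ) : ZMod p) • ι v

/-- **Package C (local analysis of the Frey curve at `p`).**  If `p ∣ abc` the Frey curve has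
multiplicative reduction at `p` with `p ∣ v_p(Δ)`; its `p`-torsion has dimension `2` and is finite
at `p`. -/
def Stmt_FreyFiniteAtP : Prop :=
  ∀ (P : FreyPackage), (P.p : ℤ) ∣ P.a * P.b * P.c →
    ∀ A : ValuationSubring (AlgebraicClosure ℚ), A.LiesOverPrime P.p →
      Module.finrank (ZMod P.p) (Tors P.freyCurve P.p) = 2 ∧
      IsFiniteAt P.p A
        (galoisRepModuleEnd (S := ℚ) (K := AlgebraicClosure ℚ) P.freyCurve.toAffine P.p)

/-- **Package E (non-Eisenstein).**  If `E[p]` is irreducible then `a_ℓ ≠ 1 + ℓ` in `ZMod p` for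
some good prime `ℓ ∤ N p`.  (Proved by helper19 for every elliptic curve: `S41/H19_I3Final.lean`.) -/
def Stmt_NonEis : Prop :=
  ∀ (P : FreyPackage) (W : WeierstrassCurve ℤ), W.IsIntegralModelOf P.freyCurve →
    ∀ N : ℕ, 0 < N →
      GaloisRepIsIrreducible (K := AlgebraicClosure ℚ) ℚ P.freyCurve P.p →
      ∃ ℓ : ℕ, ℓ.Prime ∧ W.IsGoodPrimeFor ℓ ∧ ¬ ℓ ∣ N ∧ ℓ ≠ P.p ∧
        ((W.apOfModel ℓ : ℤ) : ZMod P.p) ≠ 1 + (ℓ : ZMod P.p)

/-- **Package D (small).**  Every prime has a place of `ℚ̄` above it. -/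
def Stmt_PlaceOver : Prop :=
  ∀ p : ℕ, p.Prime → ∃ A : ValuationSubring (AlgebraicClosure ℚ), A.LiesOverPrime p

end Fermat.Agent.S44
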