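/-
helper93, row 38 (S44): the NEW abstract interface for the structure of `J₀(N)[p]` at a place
over `p ∥ N` (plan: `NOTES/plan/L_S44.md` §11), and Mazur's principle at `p` deduced from it.

`HeckeGaloisModule.HasBadStructure N A` : subspaces `G0`, `G` of `J` with

  (c) an eigenvector in `G` outside `G0` comes from level `N / p`
      (`G` = classes with all slopes zero, `G0` = those whose reductions on both components are
      `p`-th powers; `G / G0` injects into the logarithmic differentials of level `N / p`);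
  (d) a non-Eisenstein eigenvector `x` such that `(σ - 1) x` lies, for `σ` in the inertia
      group `I`, in a subspace `Y` on which `I` acts through the mod `p` cyclotomic character,
      and which is fixed by the inertia of `ℚ_p^nr(μ_p, u^(1/p))` (`u` prime to `p`), lies in `G`
      (first-order analysis over `K₂`: the slope vector is Eisenstein);
  (e) an element `x` of `G0` with the same `Y`, `u` (no Hecke hypothesis) lies in `Y`
      (Raynaud / Oort-Tate over `K₃ = ℚ_p^nr(u^(1/p))`, by explicit expansion).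

Compared with `HasBadFiltration` (file `BadP.lean`) there is no clause about the action of
inertia on the toric part and on `J / G`, and the deduction below uses neither the ramification
of the cyclotomic character, nor the irreducibility, nor the dimension of `V`.

`removesP_of_badStructure` : `HasBadStructure` gives `RemovesP` (pure algebra).
-/
import Fermat.Agent.S44.Defs

set_option autoImplicit false

namespace Fermat.Agent.S44

/-- "`x` is an eigenvector for the operators `T ℓ` (`ℓ ∉ S`, `ℓ ∤ N`, `ℓ ≠ p`) with eigenvalues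
`t ℓ`." -/
def HeckeGaloisModule.IsEigen {p : ℕ} (H : HeckeGaloisModule p) (N : ℕ) (S : Finset ℕ)
    (t : ℕ → ℤ) (x : H.J) : Prop :=
  ∀ ℓ : ℕ, ℓ.Prime → ℓ ∉ S → ¬ ℓ ∣ N → ℓ ≠ p → H.T ℓ x = ((t ℓ : ℤ) : ZMod p) • x

/-- "The system `t` is not Eisenstein": `t ℓ ≠ 1 + ℓ` in `ZMod p` for some admissible `ℓ`. -/
def NonEisSystem (p N : ℕ) (S : Finset ℕ) (t : ℕ → ℤ) : Prop :=
  ∃ ℓ : ℕ, ℓ.Prime ∧ ℓ ∉ S ∧ ¬ ℓ ∣ N ∧ ℓ ≠ p ∧ ((t ℓ : ℤ) : ZMod p) ≠ 1 + (ℓ : ZMod p)

/-- "The system `t` comes from an eigenform of level `M`, modulo a maximal ideal over `p`." -/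
def ComesFromLevel (p N M : ℕ) (S : Finset ℕ) (t : ℕ → ℤ) : Prop :=
  ∃ (g : CuspForm (CongruenceSubgroup.Gamma0 M) 2) (𝔪 : Ideal ZBar),
    g.IsNormalizedEigenform ∧ 𝔪.IsMaximal ∧ (p : ZBar) ∈ 𝔪 ∧
    ∀ ℓ : ℕ, ℓ.Prime → ℓ ∉ S → ¬ ℓ ∣ N → ℓ ≠ p →
      ∃ a : ZBar, (a : ℂ) = ModularFormClass.qCoeff g ℓ ∧ a - ((t ℓ : ℤ) : ZBar) ∈ 𝔪

/-- "Inertia at `A` acts on the subspace `Y` through the mod `p` cyclotomic character." -/
def HeckeGaloisModule.IsCycOn {p : ℕ} (H : HeckeGaloisModule p)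
    (A : ValuationSubring (AlgebraicClosure ℚ)) (Y : Submodule (ZMod p) H.J) : Prop :=
  ∀ σ ∈ A.inertiaSubgroupIn ℚ, ∀ n : ℕ,
    (∀ ζ : AlgebraicClosure ℚ, ζ ^ p = 1 → σ ζ = ζ ^ n) →
      ∀ y ∈ Y, H.gal σ y = (n : ZMod p) • y

/-- "`x` is fixed by the inertia of `ℚ_p^nr(μ_p, u^(1/p))`." -/
def HeckeGaloisModule.IsPeuFixed {p : ℕ} (H : HeckeGaloisModule p)
    (A : ValuationSubring (AlgebraicClosure ℚ)) (u : ℤ) (x : H.J) : Prop :=
  ∀ σ ∈ A.inertiaSubgroupIn ℚ,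
    (∀ ζ : AlgebraicClosure ℚ, ζ ^ p = 1 → σ ζ = ζ) →
    (∀ z : AlgebraicClosure ℚ, z ^ p = (u : AlgebraicClosure ℚ) → σ z = z) →
      H.gal σ x = x

/-- **BAD_p, new abstract form.**  See the header. -/
def HeckeGaloisModule.HasBadStructure {p : ℕ} (H : HeckeGaloisModule p) (N : ℕ)
    (A : ValuationSubring (AlgebraicClosure ℚ)) : Prop :=
  ∃ G0 G : Submodule (ZMod p) H.J,
    (∀ (S : Finset ℕ) (t : ℕ → ℤ) (x : H.J), x ∈ G → x ∉ G0 →
      H.IsEigen N S t x → ComesFromLevel p N (N / p) S t) ∧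
    (∀ (S : Finset ℕ) (t : ℕ → ℤ) (x : H.J) (Y : Submodule (ZMod p) H.J) (u : ℤ),
      H.IsEigen N S t x → NonEisSystem p N S t →
      H.IsCycOn A Y → (∀ σ ∈ A.inertiaSubgroupIn ℚ, H.gal σ x - x ∈ Y) →
      ¬ (p : ℤ) ∣ u → H.IsPeuFixed A u x →
      x ∈ G) ∧
    (∀ (x : H.J) (Y : Submodule (ZMod p) H.J) (u : ℤ), x ∈ G0 →
      H.IsCycOn A Y → (∀ σ ∈ A.inertiaSubgroupIn ℚ, H.gal σ x - x ∈ Y) →
      ¬ (p : ℤ) ∣ u → H.IsPeuFixed A u x →
      x ∈ Y)

/-- **Mazur's principle at `p`** from the new abstract structure. -/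
theorem removesP_of_badStructure {p : ℕ} (H : HeckeGaloisModule p) (N : ℕ)
    (A : ValuationSubring (AlgebraicClosure ℚ))
    (hbad : H.HasBadStructure N A) : H.RemovesP N A := by
  intro V _ _ ρ ι S t _hdim _hirr hfin hinj hequiv hT hNE
  obtain ⟨G0, G, hc, hd, he⟩ := hbad
  obtain ⟨L, hLtop, hLχ, hLtriv, u, hu, hpeu⟩ := hfin
  -- the image of `L`
  set Y : Submodule (ZMod p) H.J := L.map ι with hY
  have hYcyc : H.IsCycOn A Y := by
    intro σ hσ n hn y hy
    obtain ⟨l, hl, rfl⟩ := Submodule.mem_map.mp hy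
    rw [← hequiv, hLχ σ hσ n hn l hl, map_smul]
  have hYsub : ∀ v : V, ∀ σ ∈ A.inertiaSubgroupIn ℚ, H.gal σ (ι v) - ι v ∈ Y := by
    intro v σ hσ
    have h1 : H.gal σ (ι v) - ι v = ι (ρ σ v - v) := by
      rw [map_sub, hequiv]
    rw [h1]
    exact Submodule.mem_map_of_mem (hLtriv σ hσ v)
  have hfix : ∀ v : V, H.IsPeuFixed A u (ι v) := by
    intro v σ hσ h1 h2
    rw [← hequiv, hpeu σ hσ h1 h2 v]
  have heig : ∀ v : V, H.IsEigen N S t (ι v) := fun v ℓ hℓ hℓS hℓN hℓp => hT ℓ hℓ hℓS hℓN hℓp v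
  -- every vector of `V` lies in `G`
  have hVG : ∀ v : V, ι v ∈ G := fun v =>
    hd S t (ι v) Y u (heig v) hNE hYcyc (hYsub v) hu (hfix v)
  by_cases hcase : ∃ v : V, ι v ∉ G0
  · obtain ⟨v, hv⟩ := hcase
    exact hc S t (ι v) (hVG v) hv (heig v)
  · exfalso
    push Not at hcase
    apply hLtop
    refine eq_top_iff.mpr fun v _ => ?_
    have hvY : ι v ∈ Y := he (ι v) Y u (hcase v) hYcyc (hYsub v) hu (hfix v)
    obtain ⟨l, hl, hlv⟩ := Submodule.mem_map.mp hvY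
    rw [← hinj hlv]
    exact hl

end Fermat.Agent.S44
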