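/-
helper93, row 38 (S44): the wiring with the NEW interface for BAD_p (`BadP2.lean`,
`NOTES/plan/L_S44.md` §11).

* `Stmt_BadP2`             : `J₀(N)[p]` has the structure `HasBadStructure` at every place over
                             `p ∥ N`, for the primes `p ≥ 5`;
* `result_of_badStructure` : the frozen statement S44 from `Stmt_BadP2` and
                             `Stmt_FreyFiniteAtP` (package C) alone.
-/
import Fermat.Agent.S44.BadP2
import Fermat.Agent.S44.TateModP3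

set_option autoImplicit false

open WeierstrassCurve WeierstrassCurve.Affine WeierstrassCurve.Affine.Point
open scoped WeierstrassCurve.Affine

namespace Fermat.Agent.S44

/-- **Package A2, new form (BAD_p).**  The structure of `J₀(N)[p]` at a place over `p ∥ N`,
`p ≥ 5`. -/
def Stmt_BadP2 : Prop :=
  ∀ (p : ℕ), p.Prime → 5 ≤ p → ∀ (N : ℕ) [NeZero N], p ∣ N → ¬ p ^ 2 ∣ N →
    ∀ A : ValuationSubring (AlgebraicClosure ℚ), A.LiesOverPrime p →
      (jzModule N p).HasBadStructure N A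

/-- S44 for a model with non-zero discriminant, from a Hecke-Galois module of level `N` with
Mazur's principle at the prime of the Frey package. -/
theorem result_of_module_aux (hC : Stmt_FreyFiniteAtP)
    (P : FreyPackage) {N : ℕ} (hcond : P.IsConductorLevel N) (hpN : P.p ∣ N)
    (hirr : GaloisRepIsIrreducible (K := AlgebraicClosure ℚ) ℚ P.freyCurve P.p)
    (A : ValuationSubring (AlgebraicClosure ℚ)) (hAp : A.LiesOverPrime P.p)
    (H : HeckeGaloisModule P.p) (hcont : H.IsContinuous) (hES : H.EichlerShimura N)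
    (hsupp : H.HasSupport N) (hrem : H.RemovesP N A)
    (f : CuspForm (CongruenceSubgroup.Gamma0 N) 2) (W : WeierstrassCurve ℤ)
    (𝔪 : Ideal (integralClosure ℤ ℂ)) (hf : f.IsNormalizedEigenform)
    (hW : W.IsIntegralModelOf P.freyCurve) (hΔ : W.Δ ≠ 0)
    (h𝔪 : 𝔪.IsMaximal) (hp𝔪 : (P.p : integralClosure ℤ ℂ) ∈ 𝔪)
    (hcong : ∀ ℓ : ℕ, ℓ.Prime → W.IsGoodPrimeFor ℓ → ¬ ℓ ∣ N → ℓ ≠ P.p →
      ∃ a : integralClosure ℤ ℂ, (a : ℂ) = ModularFormClass.qCoeff f ℓ ∧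
        a - ((W.apOfModel ℓ : ℤ) : integralClosure ℤ ℂ) ∈ 𝔪) :
    ∃ M : ℕ, M ∣ N ∧ ¬ P.p ∣ M ∧ P.ModularRepOfLevel M := by
  have hp : P.p.Prime := P.pp
  have hp2 : P.p ≠ 2 := by have := P.hp5; omega
  have hp2N : ¬ P.p ^ 2 ∣ N := hcond.sq_not_dvd hp
  -- the exceptional set: the bad primes of the model
  set S : Finset ℕ := W.Δ.natAbs.primeFactors with hS
  have hgood : ∀ ℓ : ℕ, ℓ.Prime → ℓ ∉ S → W.IsGoodPrimeFor ℓ := fun ℓ hℓ h =>
    prime_not_mem_of_good hℓ hΔ h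
  -- the eigenvector of level `N`
  obtain ⟨x, hx0, hx⟩ := hsupp f 𝔪 S (fun ℓ => W.apOfModel ℓ) hf h𝔪 hp𝔪
    (fun ℓ hℓ hℓS hℓN hℓp => hcong ℓ hℓ (hgood ℓ hℓ hℓS) hℓN hℓp)
  -- congruence recovery
  obtain ⟨ι, hinj, hequiv, hT⟩ := Fermat.Agent.L.H52.recovery P.p hp hp2 N hcond.pos H hcont hES
    P.freyCurve W hW hirr S hgood x hx0 hx
  -- the local structure at `p`
  obtain ⟨hdim, hfin⟩ := hC P (hcond.p_dvd_abc hpN) A hAp
  -- the system is not Eisenstein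
  have hNE : ∃ ℓ : ℕ, ℓ.Prime ∧ ℓ ∉ S ∧ ¬ ℓ ∣ N ∧ ℓ ≠ P.p ∧
      ((W.apOfModel ℓ : ℤ) : ZMod P.p) ≠ 1 + (ℓ : ZMod P.p) := by
    obtain ⟨ℓ, hℓ, hℓW, hℓN, hℓp, hne⟩ := stmt_NonEis P W hW N hcond.pos hirr
    refine ⟨ℓ, hℓ, ?_, hℓN, hℓp, hne⟩
    intro hmem
    rw [hS, Nat.mem_primeFactors] at hmem
    exact hℓW (Int.natCast_dvd.mpr hmem.2.1)
  -- Mazur's principle
  obtain ⟨g, 𝔪', hg, h𝔪', hp𝔪', hg_cong⟩ := hrem (Tors P.freyCurve P.p)
    (galoisRepModuleEnd (S := ℚ) (K := AlgebraicClosure ℚ) P.freyCurve.toAffine P.p)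
    ι S (fun ℓ => W.apOfModel ℓ) hdim
    (fun W' hW' => hirr.2 W' (fun σ x hx => hW' σ x hx))
    hfin hinj (fun σ v => hequiv σ v) hT hNE
  refine ⟨N / P.p, Nat.div_dvd_of_dvd hpN, ?_, g, W, 𝔪', hg, hW, h𝔪', hp𝔪', ?_⟩
  · intro hdvd
    apply hp2N
    obtain ⟨c, hc⟩ := hdvd
    refine ⟨c, ?_⟩
    have hN : N = P.p * (N / P.p) := (Nat.mul_div_cancel' hpN).symm
    rw [hN, hc, pow_two, mul_assoc]
  · intro ℓ hℓ hℓW hℓM hℓp
    have hℓN : ¬ ℓ ∣ N := by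
      intro hdvd
      have hN : N = P.p * (N / P.p) := (Nat.mul_div_cancel' hpN).symm
      rw [hN] at hdvd
      rcases (Nat.Prime.dvd_mul hℓ).mp hdvd with h | h
      · exact hℓp ((Nat.prime_dvd_prime_iff_eq hℓ hp).mp h)
      · exact hℓM h
    have hℓS : ℓ ∉ S := by
      intro hmem
      rw [hS, Nat.mem_primeFactors] at hmem
      exact hℓW (Int.natCast_dvd.mpr hmem.2.1)
    exact hg_cong ℓ hℓ hℓS hℓN hℓp

/-- **S44 from the two open packages, new form**: `Stmt_BadP2` (BAD_p for `p ≥ 5`) and the local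
analysis of the Frey curve at `p`.  The conclusion is the frozen statement S44. -/
theorem result_of_badStructure
    (h2 : Stmt_BadP2) (hC : Stmt_FreyFiniteAtP)
    (P : FreyPackage) {N : ℕ} (hcond : P.IsConductorLevel N) (hpN : P.p ∣ N)
    (hirr : GaloisRepIsIrreducible (K := AlgebraicClosure ℚ) ℚ P.freyCurve P.p)
    (hmod : P.ModularRepOfLevel N) :
    ∃ M : ℕ, M ∣ N ∧ ¬ P.p ∣ M ∧ P.ModularRepOfLevel M := by
  obtain ⟨f, W, 𝔪, hf, hW, h𝔪, hp𝔪, hcong⟩ := hmod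
  have hp : P.p.Prime := P.pp
  have hp2 : P.p ≠ 2 := by have := P.hp5; omega
  haveI : NeZero N := ⟨hcond.pos.ne'⟩
  obtain ⟨A, hAp⟩ := stmt_PlaceOver P.p hp
  obtain ⟨hc, hES, hsupp⟩ := stmt_TateModP P.p hp hp2 N
  exact result_of_module_aux hC P hcond hpN hirr A hAp (jzModule N P.p) hc hES hsupp
    (removesP_of_badStructure (jzModule N P.p) N A
      (h2 P.p hp P.hp5 N hpN (hcond.sq_not_dvd hp) A hAp))
    f W 𝔪 hf hW (integralModel_Δ_ne_zero P hW) h𝔪 hp𝔪 hcong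

end Fermat.Agent.S44
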