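/-
helper93, row 38 (S44): the CONCRETE form of the new interface for BAD_p
(`NOTES/plan/L_S44.md` §11; tested by lead, helper28, helper97).

Setting: `N = M p`, `p ∤ M`, `A` a valuation ring of `ℚ̄` over `p ≥ 5`, `w = wS p M a b hab hp` the
Atkin-Lehner involution `w_p` of `F_N · ℚ̄` (helper88), `K1 = InK1 A N p` (helper91), `Fin1` (helper37).
The definitions are those of the S43 wiring with the bad prime `q := p`.

* `finP`   : `G  = {x : Fin1 x ∧ Fin1 (w x)}`  (all slopes are `0`: the finite part);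
* `toric`  : `G0 = K1 ∩ w K1`                  (for `q = p` this is the CONNECTED part of `G`);

Leaves:

* `Stmt_OldP`   (c): an eigenvector in `Fin1` outside `K1` comes from level `N / p`
                     (= `S43.BadQ.Stmt_Old` with the bad prime `p`; helper75's OLD assembly);
* `Stmt_SlopeP` (d): a non-Eisenstein eigenvector with the peu ramifiée structure lies in `Fin1`;
* `Stmt_RayP`   (e): an element of `K1 ∩ w K1` with the peu ramifiée structure lies in `Y`.

`stmt_BadP2_of_leaves` : the three leaves give `Stmt_BadP2`, hence (with package C) S44.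
-/
import Fermat.Agent.S44.Final3
import Fermat.Agent.S43.H88_WHecke

set_option autoImplicit false
set_option synthInstance.maxHeartbeats 400000
set_option maxHeartbeats 1000000

noncomputable section

open AlgebraicCurve ModularCurve

namespace Fermat.Agent.S44

open Fermat.Agent.BAD Fermat.Agent.S43.BadQ Fermat.Agent.S28.H73 Fermat.Agent.RED.H73

/-! ## `Fin1` is a subgroup -/

section Fin

variable {A : ValuationSubring (AlgebraicClosure ℚ)} {N n : ℕ}

theorem ne_zero_of_gaussRes_ne_zero {f : ↥(gaussV A N)} (h : gaussRes A N f ≠ 0) :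
    (f : ↥(FNbar N)) ≠ 0 := by
  intro h0
  have : f = 0 := Subtype.ext h0
  rw [this, map_zero] at h
  exact h rfl

theorem fin1_zero : Fin1 A N n (0 : JZero N) := by
  refine ⟨0, 1, rfl, by rw [map_one]; exact one_ne_zero, fun P => ?_, fun Q => ?_⟩
  · show (n : ℤ) * (0 : Divisor (AlgebraicClosure ℚ) ↥(FNbar N)) P = P.ord (1 : ↥(FNbar N))
    rw [Place.ord_one, Finsupp.zero_apply, mul_zero]
  · rw [map_one, Place.ord_one]
    exact dvd_zero _

theorem Fin1.add {x y : JZero N} (hx : Fin1 A N n x) (hy : Fin1 A N n y) :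
    Fin1 A N n (x + y) := by
  obtain ⟨D, f, rfl, hf, hD, hQ⟩ := hx
  obtain ⟨E, g, rfl, hg, hE, hQ'⟩ := hy
  refine ⟨D + E, f * g, (Pic0.mk_add D E).symm, by rw [map_mul]; exact mul_ne_zero hf hg,
    fun P => ?_, fun Q => ?_⟩
  · have h1 : (((f * g : ↥(gaussV A N)) : ↥(FNbar N))) = (f : ↥(FNbar N)) * (g : ↥(FNbar N)) := rfl
    rw [h1, Place.ord_mul _ (ne_zero_of_gaussRes_ne_zero hf) (ne_zero_of_gaussRes_ne_zero hg),
      ← hD P, ← hE P]
    show (n : ℤ) * ((D : Divisor (AlgebraicClosure ℚ) ↥(FNbar N)) +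
      (E : Divisor (AlgebraicClosure ℚ) ↥(FNbar N))) P = _
    rw [Finsupp.add_apply, mul_add]
  · rw [map_mul, Place.ord_mul _ hf hg]
    exact dvd_add (hQ Q) (hQ' Q)

theorem Fin1.neg {x : JZero N} (hx : Fin1 A N n x) : Fin1 A N n (-x) := by
  obtain ⟨D, f, rfl, hf, hD, hQ⟩ := hx
  have hu : IsUnit f := by
    by_contra hnu
    have hm : f ∈ IsLocalRing.maximalIdeal ↥(gaussV A N) := (IsLocalRing.mem_maximalIdeal f).2 hnu
    rw [← ker_gaussResF' A (hasScale_laurentBaseChange A N), RingHom.mem_ker] at hm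
    exact hf hm
  obtain ⟨u, rfl⟩ := hu
  have h1 : gaussRes A N ((u⁻¹ : (↥(gaussV A N))ˣ) : ↥(gaussV A N)) *
      gaussRes A N (u : ↥(gaussV A N)) = 1 := by
    rw [← map_mul, Units.inv_mul, map_one]
  have hinv : gaussRes A N ((u⁻¹ : (↥(gaussV A N))ˣ) : ↥(gaussV A N)) =
      (gaussRes A N (u : ↥(gaussV A N)))⁻¹ := eq_inv_of_mul_eq_one_left h1
  refine ⟨-D, ((u⁻¹ : (↥(gaussV A N))ˣ) : ↥(gaussV A N)), rfl, ?_, fun P => ?_, fun Q => ?_⟩
  · rw [hinv]
    exact inv_ne_zero hf
  · have h2 : (((u⁻¹ : (↥(gaussV A N))ˣ) : ↥(gaussV A N)) : ↥(FNbar N)) =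
        ((u : ↥(gaussV A N)) : ↥(FNbar N))⁻¹ := by
      have h3 : (((u⁻¹ : (↥(gaussV A N))ˣ) : ↥(gaussV A N)) : ↥(FNbar N)) *
          ((u : ↥(gaussV A N)) : ↥(FNbar N)) = 1 := by
        have := congrArg (fun z : ↥(gaussV A N) => (z : ↥(FNbar N))) (Units.inv_mul u)
        exact this
      exact eq_inv_of_mul_eq_one_left h3
    rw [h2, Place.ord_inv, ← hD P]
    show (n : ℤ) * (-(D : Divisor (AlgebraicClosure ℚ) ↥(FNbar N))) P = _
    rw [Finsupp.neg_apply, mul_neg]
  · rw [hinv, Place.ord_inv]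
    exact (dvd_neg).2 (hQ Q)

end Fin

/-! ## The finite part -/

section W

variable (p M : ℕ) (a b : ℤ) (hab : a * p + b * M = 1) (hp : p.Prime) [NeZero (M * p)]
variable (A : ValuationSubring (AlgebraicClosure ℚ))

/-- **The finite part** `G = {x : Fin1 x ∧ Fin1 (w x)}` of `J₀(M p)[p]`, as a subgroup. -/
def finPAdd : AddSubgroup (JTors (M * p) p) where
  carrier := {x | Fin1 A (M * p) p (x : JZero (M * p)) ∧
    Fin1 A (M * p) p (wS p M a b hab hp • (x : JZero (M * p)))}
  zero_mem' := by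
    refine ⟨fin1_zero, ?_⟩
    show Fin1 A (M * p) p (wS p M a b hab hp • (0 : JZero (M * p)))
    rw [show wS p M a b hab hp • (0 : JZero (M * p)) = 0 from
      smul_zero (A := JZero (M * p)) (wS p M a b hab hp)]
    exact fin1_zero
  add_mem' := by
    rintro x y ⟨hx, hx'⟩ ⟨hy, hy'⟩
    refine ⟨Fin1.add hx hy, ?_⟩
    show Fin1 A (M * p) p (wS p M a b hab hp • ((x : JZero (M * p)) + (y : JZero (M * p))))
    rw [show wS p M a b hab hp • ((x : JZero (M * p)) + (y : JZero (M * p))) =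
      wS p M a b hab hp • (x : JZero (M * p)) + wS p M a b hab hp • (y : JZero (M * p)) from
      smul_add (A := JZero (M * p)) (wS p M a b hab hp) _ _]
    exact Fin1.add hx' hy'
  neg_mem' := by
    rintro x ⟨hx, hx'⟩
    refine ⟨Fin1.neg hx, ?_⟩
    show Fin1 A (M * p) p (wS p M a b hab hp • (-(x : JZero (M * p))))
    rw [show wS p M a b hab hp • (-(x : JZero (M * p))) =
      -(wS p M a b hab hp • (x : JZero (M * p))) from
      smul_neg (A := JZero (M * p)) (wS p M a b hab hp) _]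
    exact Fin1.neg hx'

/-- **The finite part** `G` of `J₀(M p)[p]`. -/
def finP : Submodule (ZMod p) (JTors (M * p) p) :=
  AddSubgroup.toZModSubmodule p (finPAdd p M a b hab hp A)

theorem mem_finP_iff (x : JTors (M * p) p) :
    x ∈ finP p M a b hab hp A ↔ Fin1 A (M * p) p (x : JZero (M * p)) ∧
      Fin1 A (M * p) p (wS p M a b hab hp • (x : JZero (M * p))) := Iff.rfl

end W

/-! ## The leaves -/

/-- **(c) OLD at `p`.**  A common eigenvector of the Hecke operators in the finite part of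
`J₀(N)[p]`, `p ∥ N`, whose reduction on the component of `∞` is not trivial comes from level
`N / p`.  (This is `S43.BadQ.Stmt_Old` with the bad prime `q := p`.) -/
def Stmt_OldP : Prop :=
  ∀ (p : ℕ), p.Prime → 5 ≤ p → ∀ (N : ℕ) [NeZero N], p ∣ N → ¬ p ^ 2 ∣ N →
    ∀ A : ValuationSubring (AlgebraicClosure ℚ), A.LiesOverPrime p →
    ∀ (S : Finset ℕ) (t : ℕ → ℤ) (x : (jzModule N p).J),
      Fin1 A N p (jzModule.pt N p x) → ¬ InK1 A N p (jzModule.pt N p x) →
      (jzModule N p).IsEigen N S t x → ComesFromLevel p N (N / p) S t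

/-- **(d) SLOPE at `p`.**  A non-Eisenstein common eigenvector `x` of the Hecke operators in
`J₀(N)[p]`, `p ∥ N`, such that `(σ - 1) x` lies, for `σ` in the inertia group, in a subspace `Y`
on which inertia acts through the cyclotomic character, and which is fixed by the inertia of
`ℚ_p^nr(μ_p, u^(1/p))`, `u` prime to `p`, lies in the finite part. -/
def Stmt_SlopeP : Prop :=
  ∀ (p : ℕ), p.Prime → 5 ≤ p → ∀ (N : ℕ) [NeZero N], p ∣ N → ¬ p ^ 2 ∣ N →
    ∀ A : ValuationSubring (AlgebraicClosure ℚ), A.LiesOverPrime p →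
    ∀ (S : Finset ℕ) (t : ℕ → ℤ) (x : (jzModule N p).J)
      (Y : Submodule (ZMod p) (jzModule N p).J) (u : ℤ),
      (jzModule N p).IsEigen N S t x → NonEisSystem p N S t →
      (jzModule N p).IsCycOn A Y →
      (∀ σ ∈ A.inertiaSubgroupIn ℚ, (jzModule N p).gal σ x - x ∈ Y) →
      ¬ (p : ℤ) ∣ u → (jzModule N p).IsPeuFixed A u x →
      Fin1 A N p (jzModule.pt N p x)

/-- **(e) RAYNAUD at `p`.**  An element `x` of `K1 ∩ w K1 ⊆ J₀(M p)[p]` such that `(σ - 1) x`
lies, for `σ` in the inertia group, in a subspace `Y` on which inertia acts through the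
cyclotomic character, and which is fixed by the inertia of `ℚ_p^nr(μ_p, u^(1/p))`, `u` prime to
`p`, lies in `Y`. -/
def Stmt_RayP : Prop :=
  ∀ (p : ℕ), 5 ≤ p → ∀ (M : ℕ) (a b : ℤ) (hab : a * p + b * M = 1) (hp : p.Prime)
    [NeZero (M * p)],
    ∀ A : ValuationSubring (AlgebraicClosure ℚ), A.LiesOverPrime p →
    ∀ (x : (jzModule (M * p) p).J) (Y : Submodule (ZMod p) (jzModule (M * p) p).J) (u : ℤ),
      InK1 A (M * p) p (jzModule.pt (M * p) p x) →
      InK1 A (M * p) p (wS p M a b hab hp • jzModule.pt (M * p) p x) →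
      (jzModule (M * p) p).IsCycOn A Y →
      (∀ σ ∈ A.inertiaSubgroupIn ℚ, (jzModule (M * p) p).gal σ x - x ∈ Y) →
      ¬ (p : ℤ) ∣ u → (jzModule (M * p) p).IsPeuFixed A u x →
      x ∈ Y

/-! ## The wiring -/

section Wiring

variable (p M : ℕ) (a b : ℤ) (hab : a * p + b * M = 1) (hp : p.Prime) [NeZero (M * p)]
variable (A : ValuationSubring (AlgebraicClosure ℚ))

include hab hp in
/-- **The wiring at level `M p`.** -/
theorem hasBadStructure_of_leaves (hO : Stmt_OldP) (hS : Stmt_SlopeP) (hR : Stmt_RayP)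
    (hp5 : 5 ≤ p) (hpN : p ∣ M * p) (hp2 : ¬ p ^ 2 ∣ M * p) (hA : A.LiesOverPrime p) :
    (jzModule (M * p) p).HasBadStructure (M * p) A := by
  have hW := Fermat.Agent.S43.H88.stmt_WHecke
  obtain ⟨w, hwdef⟩ : ∃ w : Module.End (ZMod p) (jzModule (M * p) p).J,
      w = wTors p M a b hab hp p := ⟨_, rfl⟩
  have hwT : ∀ {S : Finset ℕ} {t : ℕ → ℤ} {x : (jzModule (M * p) p).J},
      (jzModule (M * p) p).IsEigen (M * p) S t x →
      (jzModule (M * p) p).IsEigen (M * p) S t (w x) := by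
    intro S t x hT ℓ hℓ hℓS hℓN hℓp
    have h1 := wTors_T p M a b hab hp p hW hℓ hℓN x
    have h2 := hT ℓ hℓ hℓS hℓN hℓp
    rw [hwdef]
    exact h1.trans ((congrArg (wTors p M a b hab hp p) h2).trans
      (map_smul (wTors p M a b hab hp p) _ _))
  have hgal : ∀ (σ : GQ) (z : (jzModule (M * p) p).J),
      (jzModule (M * p) p).gal σ (w z) = w ((jzModule (M * p) p).gal σ z) := by
    intro σ z
    rw [hwdef]
    exact wTors_gal p M a b hab hp p σ z
  have hpt : ∀ z : (jzModule (M * p) p).J,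
      jzModule.pt (M * p) p (w z) = wS p M a b hab hp • jzModule.pt (M * p) p z := by
    intro z
    rw [hwdef]
    rfl
  have hmemG : ∀ z : (jzModule (M * p) p).J, z ∈ finP p M a b hab hp A ↔
      Fin1 A (M * p) p (jzModule.pt (M * p) p z) ∧
        Fin1 A (M * p) p (jzModule.pt (M * p) p (w z)) := by
    intro z
    rw [hpt z]
    exact mem_finP_iff p M a b hab hp A z
  have hmemT : ∀ z : (jzModule (M * p) p).J, z ∈ toric p M a b hab hp p A ↔
      InK1 A (M * p) p (jzModule.pt (M * p) p z) ∧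
        InK1 A (M * p) p (jzModule.pt (M * p) p (w z)) := by
    intro z
    rw [hpt z]
    exact mem_toric_iff p M a b hab hp p A z
  refine ⟨toric p M a b hab hp p A, finP p M a b hab hp A, ?_, ?_, ?_⟩
  · -- (c)
    intro S t x hxG hxT hT
    have hxG' := (hmemG x).1 hxG
    by_cases h1 : InK1 A (M * p) p (jzModule.pt (M * p) p x)
    · have h2 : ¬ InK1 A (M * p) p (jzModule.pt (M * p) p (w x)) := by
        intro h2
        exact hxT ((hmemT x).2 ⟨h1, h2⟩)
      exact hO p hp hp5 (M * p) hpN hp2 A hA S t (w x) hxG'.2 h2 (hwT hT)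
    · exact hO p hp hp5 (M * p) hpN hp2 A hA S t x hxG'.1 h1 hT
  · -- (d)
    intro S t x Y u hT hNE hY hsub hu hfix
    refine (hmemG x).2
      ⟨hS p hp hp5 (M * p) hpN hp2 A hA S t x Y u hT hNE hY hsub hu hfix, ?_⟩
    -- the same for `w x` and `w Y`
    have hY' : (jzModule (M * p) p).IsCycOn A (Y.map w) := by
      intro σ hσ n hn y hy
      obtain ⟨y0, hy0, rfl⟩ := Submodule.mem_map.mp hy
      rw [hgal σ y0, hY σ hσ n hn y0 hy0, map_smul]
    have hsub' : ∀ σ ∈ A.inertiaSubgroupIn ℚ,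
        (jzModule (M * p) p).gal σ (w x) - w x ∈ Y.map w := by
      intro σ hσ
      have h1 : (jzModule (M * p) p).gal σ (w x) - w x =
          w ((jzModule (M * p) p).gal σ x - x) := by
        rw [hgal σ x, map_sub]
      rw [h1]
      exact Submodule.mem_map_of_mem (hsub σ hσ)
    have hfix' : (jzModule (M * p) p).IsPeuFixed A u (w x) := by
      intro σ hσ h1 h2
      rw [hgal σ x, hfix σ hσ h1 h2]
    exact hS p hp hp5 (M * p) hpN hp2 A hA S t (w x) (Y.map w) u (hwT hT) hNE hY' hsub' hu hfix'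
  · -- (e)
    intro x Y u hx hY hsub hu hfix
    have hx' := (hmemT x).1 hx
    rw [hpt x] at hx'
    exact hR p hp5 M a b hab hp A hA x Y u hx'.1 hx'.2 hY hsub hu hfix

end Wiring

/-- **`Stmt_BadP2` from the three leaves.** -/
theorem stmt_BadP2_of_leaves (hO : Stmt_OldP) (hS : Stmt_SlopeP) (hR : Stmt_RayP) :
    Stmt_BadP2 := by
  intro p hp hp5 N _ hpN hp2 A hA
  obtain ⟨M, rfl⟩ : ∃ M, N = M * p := ⟨N / p, (Nat.div_mul_cancel hpN).symm⟩
  have hpM : ¬ p ∣ M := by
    rintro ⟨k, rfl⟩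
    exact hp2 ⟨k, by ring⟩
  have hcop : IsCoprime (p : ℤ) (M : ℤ) :=
    Nat.isCoprime_iff_coprime.2 ((Nat.Prime.coprime_iff_not_dvd hp).2 hpM)
  obtain ⟨a, b, hab⟩ := hcop
  exact hasBadStructure_of_leaves p M a b hab hp A hO hS hR hp5 hpN hp2 hA

open WeierstrassCurve WeierstrassCurve.Affine WeierstrassCurve.Affine.Point in
open scoped WeierstrassCurve.Affine in
/-- **S44 from the four open leaves**: (c) `Stmt_OldP`, (d) `Stmt_SlopeP`, (e) `Stmt_RayP` and
package C `Stmt_FreyFiniteAtP`.  The conclusion is the frozen statement S44. -/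
theorem result_of_leavesP (hO : Stmt_OldP) (hS : Stmt_SlopeP) (hR : Stmt_RayP)
    (hC : Stmt_FreyFiniteAtP)
    (P : FreyPackage) {N : ℕ} (hcond : P.IsConductorLevel N) (hpN : P.p ∣ N)
    (hirr : GaloisRepIsIrreducible (K := AlgebraicClosure ℚ) ℚ P.freyCurve P.p)
    (hmod : P.ModularRepOfLevel N) :
    ∃ M : ℕ, M ∣ N ∧ ¬ P.p ∣ M ∧ P.ModularRepOfLevel M :=
  result_of_badStructure (stmt_BadP2_of_leaves hO hS hR) hC P hcond hpN hirr hmod

end Fermat.Agent.S44
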