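/-
helper93, row 38 (S44): the abstract structure of `J₀(N)[p]` at a place over `p ∥ N`
(package BAD_p in abstract form) and Mazur's principle at `p` deduced from it.

`HeckeGaloisModule.HasBadFiltration N A` : subspaces `T ≤ G ≤ J` (toric part, finite part) with
  (a) inertia acts on `T` through the mod `p` cyclotomic character,
  (b) inertia acts trivially on `J / G`,
  (c) an eigenvector in `G` outside `T` comes from level `N / p`  (`G / T ↪ (J₀(N/p)[p])²`),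
  (d) a non-Eisenstein eigenvector `x` with `(σ - 1) x ∈ T` for all `σ` in inertia, which is
      fixed by the inertia of `ℚ_p^nr(μ_p, u^(1/p))` (`u` prime to `p`), lies in `G`
      (valuation of the period pairing = monodromy pairing; the component group is Eisenstein).

`removesP_of_bad` : `HasBadFiltration` + "the cyclotomic character is ramified at `p`" give
`RemovesP` (pure algebra).  Plan and proofs of (a)-(d) in the real world: `NOTES/plan/L_S44.md`.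
-/
import Fermat.Agent.S44.Defs

set_option autoImplicit false

namespace Fermat.Agent.S44

/-- The mod `p` cyclotomic character is ramified at `p`: some element of the inertia group moves
a `p`-th root of unity. -/
def Stmt_CycRam : Prop :=
  ∀ (p : ℕ), p.Prime → p ≠ 2 →
    ∀ A : ValuationSubring (AlgebraicClosure ℚ), A.LiesOverPrime p →
      ∃ σ ∈ A.inertiaSubgroupIn ℚ, ∃ ζ : AlgebraicClosure ℚ, ζ ^ p = 1 ∧ σ ζ ≠ ζ

/-- **BAD_p, abstract form.**  See the header. -/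
def HeckeGaloisModule.HasBadFiltration {p : ℕ} (H : HeckeGaloisModule p) (N : ℕ)
    (A : ValuationSubring (AlgebraicClosure ℚ)) : Prop :=
  ∃ T G : Submodule (ZMod p) H.J, T ≤ G ∧
    (∀ σ ∈ A.inertiaSubgroupIn ℚ, ∀ n : ℕ,
      (∀ ζ : AlgebraicClosure ℚ, ζ ^ p = 1 → σ ζ = ζ ^ n) →
        ∀ x ∈ T, H.gal σ x = (n : ZMod p) • x) ∧
    (∀ σ ∈ A.inertiaSubgroupIn ℚ, ∀ x : H.J, H.gal σ x - x ∈ G) ∧
    (∀ (S : Finset ℕ) (t : ℕ → ℤ) (x : H.J), x ∈ G → x ∉ T →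
      (∀ ℓ : ℕ, ℓ.Prime → ℓ ∉ S → ¬ ℓ ∣ N → ℓ ≠ p → H.T ℓ x = ((t ℓ : ℤ) : ZMod p) • x) →
      ∃ (g : CuspForm (CongruenceSubgroup.Gamma0 (N / p)) 2) (𝔪 : Ideal ZBar),
        g.IsNormalizedEigenform ∧ 𝔪.IsMaximal ∧ (p : ZBar) ∈ 𝔪 ∧
        ∀ ℓ : ℕ, ℓ.Prime → ℓ ∉ S → ¬ ℓ ∣ N → ℓ ≠ p →
          ∃ a : ZBar, (a : ℂ) = ModularFormClass.qCoeff g ℓ ∧ a - ((t ℓ : ℤ) : ZBar) ∈ 𝔪) ∧
    (∀ (S : Finset ℕ) (t : ℕ → ℤ) (x : H.J),
      (∀ ℓ : ℕ, ℓ.Prime → ℓ ∉ S → ¬ ℓ ∣ N → ℓ ≠ p → H.T ℓ x = ((t ℓ : ℤ) : ZMod p) • x) →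
      (∃ ℓ : ℕ, ℓ.Prime ∧ ℓ ∉ S ∧ ¬ ℓ ∣ N ∧ ℓ ≠ p ∧ ((t ℓ : ℤ) : ZMod p) ≠ 1 + (ℓ : ZMod p)) →
      (∀ σ ∈ A.inertiaSubgroupIn ℚ, H.gal σ x - x ∈ T) →
      (∃ u : ℤ, ¬ (p : ℤ) ∣ u ∧ ∀ σ ∈ A.inertiaSubgroupIn ℚ,
        (∀ ζ : AlgebraicClosure ℚ, ζ ^ p = 1 → σ ζ = ζ) →
        (∀ z : AlgebraicClosure ℚ, z ^ p = (u : AlgebraicClosure ℚ) → σ z = z) →
          H.gal σ x = x) →
      x ∈ G)

/-- An automorphism of `ℚ̄` acts on the `p`-th roots of unity by `ζ ↦ ζ ^ n` for some `n : ℕ`. -/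
theorem exists_pow_on_roots (p : ℕ) (hp : 0 < p) (σ : GQ) :
    ∃ n : ℕ, ∀ ζ : AlgebraicClosure ℚ, ζ ^ p = 1 → σ ζ = ζ ^ n := by
  haveI : NeZero p := ⟨hp.ne'⟩
  obtain ⟨m, hm⟩ := rootsOfUnity.integer_power_of_ringEquiv (n := p) (σ : AlgebraicClosure ℚ ≃+* AlgebraicClosure ℚ)
  refine ⟨(m % (p : ℤ)).toNat, fun ζ hζ => ?_⟩
  have hζ0 : ζ ≠ 0 := by
    rintro rfl
    rw [zero_pow hp.ne'] at hζ
    exact zero_ne_one hζ
  have hmem : (Units.mk0 ζ hζ0) ∈ rootsOfUnity p (AlgebraicClosure ℚ) := by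
    rw [mem_rootsOfUnity]
    ext
    simpa using hζ
  have h1 := hm ⟨Units.mk0 ζ hζ0, hmem⟩
  have h2 : σ ζ = ζ ^ m := by
    simpa using h1
  rw [h2]
  have hnn : 0 ≤ m % (p : ℤ) := Int.emod_nonneg _ (by exact_mod_cast hp.ne')
  have hdecomp : m = (p : ℤ) * (m / (p : ℤ)) + ((m % (p : ℤ)).toNat : ℤ) := by
    rw [Int.toNat_of_nonneg hnn]
    exact (Int.mul_ediv_add_emod m p).symm
  conv_lhs => rw [hdecomp]
  rw [zpow_add₀ hζ0, zpow_mul, zpow_natCast, hζ, one_zpow, one_mul, zpow_natCast]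

/-- **Mazur's principle at `p`** from the abstract structure. -/
theorem removesP_of_bad {p : ℕ} (hp : p.Prime) (H : HeckeGaloisModule p) (N : ℕ)
    (A : ValuationSubring (AlgebraicClosure ℚ))
    (hcyc : ∃ σ ∈ A.inertiaSubgroupIn ℚ, ∃ ζ : AlgebraicClosure ℚ, ζ ^ p = 1 ∧ σ ζ ≠ ζ)
    (hbad : H.HasBadFiltration N A) : H.RemovesP N A := by
  haveI : Fact p.Prime := ⟨hp⟩
  intro V _ _ ρ ι S t hdim hirr hfin hinj hequiv hT hNE
  obtain ⟨T, G, hTG, ha, hb, hc, hd⟩ := hbad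
  obtain ⟨L, hLtop, hLχ, hLtriv, u, hu, hpeu⟩ := hfin
  by_cases hcase : ∃ v : V, ι v ∈ G ∧ ι v ∉ T
  · -- an eigenvector in `G` outside `T`
    obtain ⟨v, hvG, hvT⟩ := hcase
    exact hc S t (ι v) hvG hvT (fun ℓ hℓ hℓS hℓN hℓp => hT ℓ hℓ hℓS hℓN hℓp v)
  · exfalso
    push Not at hcase
    -- every vector of `V` lies in `G`
    have hVG : ∀ v : V, ι v ∈ G := by
      intro v
      refine hd S t (ι v) (fun ℓ hℓ hℓS hℓN hℓp => hT ℓ hℓ hℓS hℓN hℓp v) hNE ?_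
        ⟨u, hu, fun σ hσ h1 h2 => ?_⟩
      · intro σ hσ
        have h1 : H.gal σ (ι v) - ι v = ι (ρ σ v - v) := by
          rw [map_sub, hequiv]
        rw [h1]
        apply hcase
        rw [← h1]
        exact hb σ hσ (ι v)
      · rw [← hequiv, hpeu σ hσ h1 h2 v]
    have hVT : ∀ v : V, ι v ∈ T := fun v => hcase v (hVG v)
    -- inertia acts on `V` through the cyclotomic character
    obtain ⟨σ, hσ, ζ, hζ, hne⟩ := hcyc
    obtain ⟨n, hn⟩ := exists_pow_on_roots p hp.pos σ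
    have hact : ∀ v : V, ρ σ v = (n : ZMod p) • v := by
      intro v
      apply hinj
      rw [hequiv, ha σ hσ n hn (ι v) (hVT v), map_smul]
    -- a vector outside `L`
    obtain ⟨x, hx⟩ : ∃ x : V, x ∉ L := by
      by_contra hall
      push Not at hall
      exact hLtop (eq_top_iff.mpr fun x _ => hall x)
    have hmem : ((n : ZMod p) - 1) • x ∈ L := by
      have := hLtriv σ hσ x
      rwa [hact x, ← one_smul (ZMod p) x, smul_smul, mul_one, ← sub_smul] at this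
    by_cases h1 : (n : ZMod p) = 1
    · -- then `σ` fixes the roots of unity
      apply hne
      rw [hn ζ hζ]
      have hmod : n % p = 1 % p := by
        have := (ZMod.natCast_eq_natCast_iff' n 1 p).mp (by simpa using h1)
        exact this
      have h1p : 1 % p = 1 := Nat.mod_eq_of_lt hp.one_lt
      have hdec : n = p * (n / p) + 1 := by
        have := Nat.div_add_mod n p
        omega
      rw [hdec, pow_add, pow_mul, hζ, one_pow, one_mul, pow_one]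
    · apply hx
      have h2 : (n : ZMod p) - 1 ≠ 0 := sub_ne_zero.mpr h1
      have := L.smul_mem ((n : ZMod p) - 1)⁻¹ hmem
      rwa [smul_smul, inv_mul_cancel₀ h2, one_smul] at this

end Fermat.Agent.S44
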