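/-
helper93, row 38 (S44): the mod `p` cyclotomic character is ramified at `p` (`p` odd).

Proof: otherwise the character `G_ℚ → (ℤ/p)ˣ` is unramified everywhere (inertia at `q ≠ p` fixes
the `p`-th roots of unity), hence trivial by Minkowski (`Lib/Minkowski.lean`); but complex
conjugation inverts a primitive `p`-th root of unity.
-/
import Fermat.Agent.S44.BadP
import Fermat.Agent.Lib.Minkowski
import Fermat.Agent.Lib.FrobExists
import Fermat.Agent.R.H89_FrobCyc
import Fermat.Agent.L.H52_Rec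

set_option autoImplicit false

namespace Fermat.Agent.S44

/-- The subgroup of `G_ℚ` fixing the `p`-th roots of unity. -/
def fixRoots (p : ℕ) : Subgroup GQ where
  carrier := {σ | ∀ ζ : AlgebraicClosure ℚ, ζ ^ p = 1 → σ ζ = ζ}
  one_mem' := fun _ _ => rfl
  mul_mem' := by
    intro σ τ hσ hτ ζ hζ
    rw [AlgEquiv.mul_apply, hτ ζ hζ, hσ ζ hζ]
  inv_mem' := by
    intro σ hσ ζ hζ
    have h := hσ ζ hζ
    calc σ⁻¹ ζ = σ⁻¹ (σ ζ) := by rw [h]
      _ = ζ := by
        rw [← AlgEquiv.mul_apply, inv_mul_cancel]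
        rfl

theorem fixRoots_normal (p : ℕ) : (fixRoots p).Normal := by
  constructor
  intro σ hσ τ ζ hζ
  have h1 : (τ⁻¹ ζ) ^ p = 1 := by rw [← map_pow, hζ, map_one]
  have h2 := hσ (τ⁻¹ ζ) h1
  rw [AlgEquiv.mul_apply, AlgEquiv.mul_apply, h2, ← AlgEquiv.mul_apply, mul_inv_cancel]
  rfl

/-- **The cyclotomic character is ramified at `p`.** -/
theorem stmt_CycRam : Stmt_CycRam := by
  intro p hp hp2 A hA
  by_contra hcon
  push Not at hcon
  -- the subgroup fixing the roots of unity is everything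
  have htop : fixRoots p = ⊤ := by
    refine Fermat.Agent.Lib.Minkowski.minkowski (fixRoots p) (fixRoots_normal p) ?_ ?_
    · -- it contains the stabiliser of the finite set of roots of unity
      classical
      have hfin : {ζ : AlgebraicClosure ℚ | ζ ^ p = 1}.Finite := by
        have h0 : (Polynomial.X ^ p - 1 : Polynomial (AlgebraicClosure ℚ)) ≠ 0 :=
          Polynomial.X_pow_sub_C_ne_zero hp.pos 1
        refine ((Polynomial.X ^ p - 1 : Polynomial (AlgebraicClosure ℚ)).roots.toFinset.finite_toSet).subset ?_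
        intro ζ hζ
        simp only [Finset.mem_coe, Multiset.mem_toFinset]
        rw [Polynomial.mem_roots h0]
        simp only [Polynomial.IsRoot, Polynomial.eval_sub, Polynomial.eval_pow, Polynomial.eval_X,
          Polynomial.eval_one]
        rw [Set.mem_setOf_eq] at hζ
        rw [hζ, sub_self]
      refine ⟨hfin.toFinset, fun σ hσ ζ hζ => hσ ζ ?_⟩
      rw [Set.Finite.mem_toFinset]
      exact hζ
    · intro ℓ hℓ
      by_cases hℓp : ℓ = p
      · subst hℓp
        exact ⟨A, hA, fun σ hσ ζ hζ => hcon σ hσ ζ hζ⟩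
      · obtain ⟨A', hA'⟩ := Fermat.Agent.Lib.FrobExists.exists_liesOverPrime ℓ hℓ
        refine ⟨A', hA', fun σ hσ ζ hζ => ?_⟩
        refine Fermat.Agent.R.H89.inertia_fixes_rootsOfUnity ℓ A' hA' σ hσ p ?_ ζ hζ
        exact (Nat.coprime_primes hp hℓ).mpr (fun h => hℓp h.symm)
  -- a primitive root
  haveI : NeZero (p : AlgebraicClosure ℚ) := ⟨by exact_mod_cast hp.ne_zero⟩
  obtain ⟨ζ, hζ⟩ := HasEnoughRootsOfUnity.exists_primitiveRoot (AlgebraicClosure ℚ) p
  -- complex conjugation inverts it and fixes it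
  have h1 : complexConjugation ζ = ζ⁻¹ :=
    Fermat.Agent.L.H52.complexConjugation_root hp.ne_zero hζ.pow_eq_one
  have h2 : complexConjugation ζ = ζ := by
    have hmem : complexConjugation ∈ fixRoots p := by rw [htop]; exact Subgroup.mem_top _
    exact hmem ζ hζ.pow_eq_one
  have hζ0 : ζ ≠ 0 := hζ.ne_zero hp.ne_zero
  have h3 : ζ ^ 2 = 1 := by
    rw [h2] at h1
    rw [pow_two]
    nth_rewrite 1 [h1]
    exact inv_mul_cancel₀ hζ0
  have h4 : p ∣ 2 := hζ.dvd_of_pow_eq_one 2 h3
  have h5 : p ≤ 2 := Nat.le_of_dvd (by norm_num) h4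
  have h6 : 2 ≤ p := hp.two_le
  exact hp2 (le_antisymm h5 h6)

end Fermat.Agent.S44
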