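/-
helper93, row 38 (S44), `NOTES/plan/L_S44.md` §12: two free steps of the proof of BAD_p.

* `isCycOn_le` **(Y0)** : a subspace `Y` of `J₀(M p)[p]` on which the inertia group at `p` acts
  through the cyclotomic character lies in `G0 = K1 ∩ w K1` (from `Stmt_B0`, landed, and
  `stmt_CycRam`).
* `Stmt_RayK3` **(RAY-K3)** : `G0` has no non-zero point which is fixed by the inertia of
  `ℚ_p^nr(u^(1/p))`.
* `stmt_RayP_of_rayK3` **(e0)** : `Stmt_RayK3 → Stmt_RayP` (the cocycle `τ ↦ τ x - x` on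
  `I₃ / I₂ ⊆ (ℤ/p)ˣ` with values in `Y` is a coboundary; pure algebra).
-/
import Fermat.Agent.S44.BadP3
import Fermat.Agent.S44.CycRam
import Fermat.Agent.BAD.H91_B0

set_option autoImplicit false
set_option synthInstance.maxHeartbeats 400000
set_option maxHeartbeats 1000000

noncomputable section

open AlgebraicCurve ModularCurve

namespace Fermat.Agent.S44

open Fermat.Agent.BAD Fermat.Agent.S43.BadQ Fermat.Agent.S28.H73 Fermat.Agent.RED.H73

/-! ## Abstract part -/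

section Abstract

variable {p : ℕ} (H : HeckeGaloisModule p) (A : ValuationSubring (AlgebraicClosure ℚ))

/-- An element of `G_ℚ` which acts on the `p`-th roots of unity by `ζ ↦ ζ ^ n` with
`n ≡ 1 mod p` fixes them. -/
theorem fixes_roots_of_cast_eq_one (hp : p.Prime) {σ : GQ} {n : ℕ}
    (hn : ∀ ζ : AlgebraicClosure ℚ, ζ ^ p = 1 → σ ζ = ζ ^ n) (h1 : (n : ZMod p) = 1) :
    ∀ ζ : AlgebraicClosure ℚ, ζ ^ p = 1 → σ ζ = ζ := by
  intro ζ hζ
  rw [hn ζ hζ]
  have hmod : n % p = 1 % p := (ZMod.natCast_eq_natCast_iff' n 1 p).mp (by simpa using h1)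
  have h1p : 1 % p = 1 := Nat.mod_eq_of_lt hp.one_lt
  have hdec : n = p * (n / p) + 1 := by
    have := Nat.div_add_mod n p
    omega
  rw [hdec, pow_add, pow_mul, hζ, one_pow, one_mul, pow_one]

/-- If `σ` does not fix the `p`-th roots of unity and acts on them by `ζ ↦ ζ ^ n`, then
`n ≢ 1 mod p`. -/
theorem cast_ne_one_of_moves (hp : p.Prime) {σ : GQ} {n : ℕ}
    (hn : ∀ ζ : AlgebraicClosure ℚ, ζ ^ p = 1 → σ ζ = ζ ^ n)
    {ζ : AlgebraicClosure ℚ} (hζ : ζ ^ p = 1) (hne : σ ζ ≠ ζ) : (n : ZMod p) ≠ 1 :=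
  fun h1 => hne (fixes_roots_of_cast_eq_one hp hn h1 ζ hζ)

/-- **(e0), abstract form.**  Let `G0` be a subspace containing every subspace on which inertia
acts through the cyclotomic character, without non-zero element fixed by the stabiliser of a
`p`-th root of `u` in the inertia group.  Then clause (e) of `HasBadStructure` holds for `G0`. -/
theorem ray_of_rayK3 (hp : p.Prime) (G0 : Submodule (ZMod p) H.J)
    (hY0 : ∀ Y : Submodule (ZMod p) H.J, H.IsCycOn A Y → Y ≤ G0)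
    (hK3 : ∀ (x : H.J) (u : ℤ) (ω : AlgebraicClosure ℚ), x ∈ G0 → ¬ (p : ℤ) ∣ u →
      ω ^ p = (u : AlgebraicClosure ℚ) →
      (∀ σ ∈ A.inertiaSubgroupIn ℚ, σ ω = ω → H.gal σ x = x) → x = 0)
    (x : H.J) (Y : Submodule (ZMod p) H.J) (u : ℤ) (hx : x ∈ G0) (hY : H.IsCycOn A Y)
    (hsub : ∀ σ ∈ A.inertiaSubgroupIn ℚ, H.gal σ x - x ∈ Y) (hu : ¬ (p : ℤ) ∣ u)
    (hfix : H.IsPeuFixed A u x) : x ∈ Y := by
  haveI : Fact p.Prime := ⟨hp⟩
  have hp0 : (p : AlgebraicClosure ℚ) ≠ 0 := by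
    exact_mod_cast hp.ne_zero
  -- a `p`-th root of `u`
  obtain ⟨ω, hω⟩ : ∃ ω : AlgebraicClosure ℚ, ω ^ p = (u : AlgebraicClosure ℚ) :=
    IsAlgClosed.exists_pow_nat_eq _ hp.pos
  have hω0 : ω ≠ 0 := by
    rintro rfl
    rw [zero_pow hp.ne_zero] at hω
    have hu0 : u = 0 := by exact_mod_cast hω.symm
    exact hu (hu0 ▸ dvd_zero _)
  -- an element fixing `μ_p` and `ω` fixes every `p`-th root of `u`
  have hall : ∀ σ : GQ, (∀ ζ : AlgebraicClosure ℚ, ζ ^ p = 1 → σ ζ = ζ) → σ ω = ω →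
      ∀ z : AlgebraicClosure ℚ, z ^ p = (u : AlgebraicClosure ℚ) → σ z = z := by
    intro σ h1 h2 z hz
    have hq : (z / ω) ^ p = 1 := by
      rw [div_pow, hz, hω, div_self]
      rw [← hω]
      exact pow_ne_zero _ hω0
    have h3 := h1 (z / ω) hq
    have hz' : z = (z / ω) * ω := by field_simp
    rw [hz', map_mul, h3, h2]
  -- the elements of `I₂` fix `g x` for every `g` in the inertia group
  have hI2 : ∀ γ ∈ A.inertiaSubgroupIn ℚ, ∀ g ∈ A.inertiaSubgroupIn ℚ,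
      (∀ ζ : AlgebraicClosure ℚ, ζ ^ p = 1 → γ ζ = ζ) → γ ω = ω →
      H.gal γ (H.gal g x) = H.gal g x := by
    intro γ hγ g hg h1 h2
    -- `γ' = g⁻¹ γ g`
    have hγ' : g⁻¹ * γ * g ∈ A.inertiaSubgroupIn ℚ :=
      Subgroup.mul_mem _ (Subgroup.mul_mem _ (Subgroup.inv_mem _ hg) hγ) hg
    have hginv : ∀ z : AlgebraicClosure ℚ, g⁻¹ (g z) = z := by
      intro z
      rw [← AlgEquiv.mul_apply, inv_mul_cancel]
      rfl
    have h1' : ∀ ζ : AlgebraicClosure ℚ, ζ ^ p = 1 → (g⁻¹ * γ * g) ζ = ζ := by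
      intro ζ hζ
      rw [AlgEquiv.mul_apply, AlgEquiv.mul_apply, h1 (g ζ) (by rw [← map_pow, hζ, map_one]),
        hginv]
    have h2' : ∀ z : AlgebraicClosure ℚ, z ^ p = (u : AlgebraicClosure ℚ) →
        (g⁻¹ * γ * g) z = z := by
      intro z hz
      have hgz : (g z) ^ p = (u : AlgebraicClosure ℚ) := by
        rw [← map_pow, hz, map_intCast]
      rw [AlgEquiv.mul_apply, AlgEquiv.mul_apply, hall γ h1 h2 (g z) hgz, hginv]
    have h3 := hfix (g⁻¹ * γ * g) hγ' h1' h2'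
    have h4 : H.gal γ (H.gal g x) = H.gal g (H.gal (g⁻¹ * γ * g) x) := by
      rw [← Module.End.mul_apply, ← Module.End.mul_apply, ← map_mul, ← map_mul]
      congr 2
      group
    rw [h4, h3]
  by_cases hcase : ∃ τ₀ ∈ A.inertiaSubgroupIn ℚ, τ₀ ω = ω ∧
      ∃ ζ : AlgebraicClosure ℚ, ζ ^ p = 1 ∧ τ₀ ζ ≠ ζ
  · obtain ⟨τ₀, hτ₀, hτ₀ω, ζ₀, hζ₀, hne⟩ := hcase
    obtain ⟨n₀, hn₀⟩ := exists_pow_on_roots p hp.pos τ₀
    have hc : (n₀ : ZMod p) ≠ 1 := cast_ne_one_of_moves hp hn₀ hζ₀ hne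
    have hc' : (n₀ : ZMod p) - 1 ≠ 0 := sub_ne_zero.mpr hc
    set y₀ : H.J := H.gal τ₀ x - x with hy₀
    have hy₀Y : y₀ ∈ Y := hsub τ₀ hτ₀
    set y : H.J := ((n₀ : ZMod p) - 1)⁻¹ • y₀ with hy
    have hyY : y ∈ Y := Y.smul_mem _ hy₀Y
    -- `x - y` is fixed by `I₃`
    have hfix3 : ∀ τ ∈ A.inertiaSubgroupIn ℚ, τ ω = ω → H.gal τ (x - y) = x - y := by
      intro τ hτ hτω
      obtain ⟨n, hn⟩ := exists_pow_on_roots p hp.pos τ
      set yτ : H.J := H.gal τ x - x with hyτ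
      have hyτY : yτ ∈ Y := hsub τ hτ
      -- the commutator
      have hcomm : H.gal (τ * τ₀) x = H.gal (τ₀ * τ) x := by
        set γ : GQ := τ * τ₀ * τ⁻¹ * τ₀⁻¹ with hγ
        have hγI : γ ∈ A.inertiaSubgroupIn ℚ :=
          Subgroup.mul_mem _ (Subgroup.mul_mem _ (Subgroup.mul_mem _ hτ hτ₀)
            (Subgroup.inv_mem _ hτ)) (Subgroup.inv_mem _ hτ₀)
        have hinv : ∀ (g : GQ) (z : AlgebraicClosure ℚ), g z = z → g⁻¹ z = z := by
          intro g z hz
          calc g⁻¹ z = g⁻¹ (g z) := by rw [hz]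
            _ = z := by
              rw [← AlgEquiv.mul_apply, inv_mul_cancel]
              rfl
        have hγω : γ ω = ω := by
          rw [hγ, AlgEquiv.mul_apply, AlgEquiv.mul_apply, AlgEquiv.mul_apply,
            hinv τ₀ ω hτ₀ω, hinv τ ω hτω, hτ₀ω, hτω]
        have hγζ : ∀ ζ : AlgebraicClosure ℚ, ζ ^ p = 1 → γ ζ = ζ := by
          intro ζ hζ
          -- `τ⁻¹ τ₀⁻¹ ζ = τ₀⁻¹ τ⁻¹ ζ` since both `τ`, `τ₀` act by powers
          have hpow : ∀ (g : GQ) (m : ℕ), (∀ ξ : AlgebraicClosure ℚ, ξ ^ p = 1 → g ξ = ξ ^ m) →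
              ∀ ξ : AlgebraicClosure ℚ, ξ ^ p = 1 → (g ξ) ^ p = 1 := by
            intro g m _ ξ hξ
            rw [← map_pow, hξ, map_one]
          have e1 : (τ * τ₀) ζ = (τ₀ * τ) ζ := by
            rw [AlgEquiv.mul_apply, AlgEquiv.mul_apply, hn₀ ζ hζ, hn ζ hζ, map_pow, map_pow,
              hn ζ hζ, hn₀ ζ hζ, ← pow_mul, ← pow_mul, mul_comm]
          have e2 : γ = (τ * τ₀) * (τ₀ * τ)⁻¹ := by
            rw [hγ]
            group
          rw [e2, AlgEquiv.mul_apply]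
          have e3 : (τ₀ * τ)⁻¹ ζ = (τ * τ₀)⁻¹ ζ := by
            have h5 : ((τ₀ * τ)⁻¹ ζ) ^ p = 1 := by rw [← map_pow, hζ, map_one]
            have h6 : (τ * τ₀) ((τ₀ * τ)⁻¹ ζ) = ζ := by
              have e1' : (τ * τ₀) ((τ₀ * τ)⁻¹ ζ) = (τ₀ * τ) ((τ₀ * τ)⁻¹ ζ) := by
                rw [AlgEquiv.mul_apply, AlgEquiv.mul_apply, hn₀ _ h5, hn _ h5, map_pow, map_pow,
                  hn _ h5, hn₀ _ h5, ← pow_mul, ← pow_mul, mul_comm]
              rw [e1', ← AlgEquiv.mul_apply, mul_inv_cancel]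
              rfl
            calc (τ₀ * τ)⁻¹ ζ = (τ * τ₀)⁻¹ ((τ * τ₀) ((τ₀ * τ)⁻¹ ζ)) := by
                  rw [← AlgEquiv.mul_apply, inv_mul_cancel]
                  rfl
              _ = (τ * τ₀)⁻¹ ζ := by rw [h6]
          rw [e3, ← AlgEquiv.mul_apply, mul_inv_cancel]
          rfl
        have h7 := hI2 γ hγI (τ₀ * τ) (Subgroup.mul_mem _ hτ₀ hτ) hγζ hγω
        have h8 : H.gal (τ * τ₀) x = H.gal γ (H.gal (τ₀ * τ) x) := by
          rw [← Module.End.mul_apply, ← map_mul]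
          congr 2
          rw [hγ]
          group
        rw [h8, h7]
      -- the cocycle relation
      have hτy₀ : H.gal τ y₀ = (n : ZMod p) • y₀ := hY τ hτ n hn y₀ hy₀Y
      have hτ₀yτ : H.gal τ₀ yτ = (n₀ : ZMod p) • yτ := hY τ₀ hτ₀ n₀ hn₀ yτ hyτY
      have e1 : H.gal (τ * τ₀) x = x + yτ + (n : ZMod p) • y₀ := by
        rw [map_mul, Module.End.mul_apply]
        have : H.gal τ₀ x = x + y₀ := by rw [hy₀]; abel
        rw [this, map_add, hτy₀]
        have : H.gal τ x = x + yτ := by rw [hyτ]; abel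
        rw [this]
      have e2 : H.gal (τ₀ * τ) x = x + y₀ + (n₀ : ZMod p) • yτ := by
        rw [map_mul, Module.End.mul_apply]
        have : H.gal τ x = x + yτ := by rw [hyτ]; abel
        rw [this, map_add, hτ₀yτ]
        have : H.gal τ₀ x = x + y₀ := by rw [hy₀]; abel
        rw [this]
      have e3 : ((n₀ : ZMod p) - 1) • yτ = ((n : ZMod p) - 1) • y₀ := by
        have h9 : x + yτ + (n : ZMod p) • y₀ = x + y₀ + (n₀ : ZMod p) • yτ := by
          rw [← e1, ← e2, hcomm]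
        rw [sub_smul, sub_smul, one_smul, one_smul]
        have h10 : yτ + (n : ZMod p) • y₀ = y₀ + (n₀ : ZMod p) • yτ := by
          rw [add_assoc, add_assoc] at h9
          exact add_left_cancel h9
        rw [sub_eq_sub_iff_add_eq_add, add_comm _ y₀, ← h10, add_comm]
      have e4 : yτ = ((n : ZMod p) - 1) • y := by
        rw [hy, smul_smul, mul_comm, ← smul_smul, ← e3, smul_smul, inv_mul_cancel₀ hc', one_smul]
      have hτy : H.gal τ y = (n : ZMod p) • y := hY τ hτ n hn y hyY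
      rw [map_sub, hτy]
      have : H.gal τ x = x + yτ := by rw [hyτ]; abel
      rw [this, e4, sub_smul, one_smul]
      abel
    have hyG0 : y ∈ G0 := hY0 Y hY hyY
    have hzero := hK3 (x - y) u ω (G0.sub_mem hx hyG0) hu hω hfix3
    have hxy : x = y := sub_eq_zero.mp hzero
    rw [hxy]
    exact hyY
  · -- the character is trivial on `I₃`: `x` itself is fixed by `I₃`
    push Not at hcase
    have hfix3 : ∀ τ ∈ A.inertiaSubgroupIn ℚ, τ ω = ω → H.gal τ x = x := by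
      intro τ hτ hτω
      exact hfix τ hτ (fun ζ hζ => hcase τ hτ hτω ζ hζ)
        (hall τ (fun ζ hζ => hcase τ hτ hτω ζ hζ) hτω)
    rw [hK3 x u ω hx hu hω hfix3]
    exact Y.zero_mem

end Abstract

/-! ## `K1` is stable under multiples -/

section K1

variable {A : ValuationSubring (AlgebraicClosure ℚ)} {N n : ℕ}

theorem InK1.nsmul {x : JZero N} (hx : InK1 A N n x) (m : ℕ) : InK1 A N n (m • x) := by
  induction m with
  | zero => rw [zero_nsmul]; exact inK1_zero A N n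
  | succ m ih => rw [succ_nsmul]; exact InK1.add ih hx

theorem InK1.sub {x y : JZero N} (hx : InK1 A N n x) (hy : InK1 A N n y) :
    InK1 A N n (x - y) := by
  rw [sub_eq_add_neg]
  exact InK1.add hx (InK1.neg hy)

end K1

/-! ## (Y0) and (e0) for `J₀(M p)[p]` -/

section Concrete

variable (p M : ℕ) (a b : ℤ) (hab : a * p + b * M = 1) (hp : p.Prime) [NeZero (M * p)]
variable (A : ValuationSubring (AlgebraicClosure ℚ))

/-- An element `y` of `J₀(N)[p]` on which some element of the inertia group acts by a scalar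
`≠ 1` lies in `K1`. -/
theorem inK1_of_scalar {N : ℕ} [NeZero N] (hp : p.Prime) (y : (jzModule N p).J) {σ : GQ}
    (hσ : σ ∈ A.inertiaSubgroupIn ℚ) {n : ℕ} (hn : (n : ZMod p) ≠ 1)
    (hy : (jzModule N p).gal σ y = (n : ZMod p) • y) :
    InK1 A N p (jzModule.pt N p y) := by
  have : Fact p.Prime := ⟨hp⟩
  have htors : (p : ℤ) • jzModule.pt N p y = 0 := jzModule.pt_torsion N p y
  have htors' : p • jzModule.pt N p y = 0 := by
    rw [← natCast_zsmul]
    exact htors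
  have hB0 := Fermat.Agent.BAD.H91.stmt_B0 N A σ hσ p (jzModule.pt N p y) htors'
  -- `σ y - y = (n - 1) y`
  have h1 : σ • jzModule.pt N p y = n • jzModule.pt N p y := by
    have h2 := congrArg (jzModule.pt N p) hy
    rw [jzModule.pt_gal] at h2
    rw [h2]
    have h3 : ((n : ZMod p) • y : (jzModule N p).J) = n • y := Nat.cast_smul_eq_nsmul _ _ _
    rw [h3]
    rfl
  rw [h1] at hB0
  -- an inverse of `n - 1` modulo `p`
  have hne : (n : ZMod p) - 1 ≠ 0 := sub_ne_zero.mpr hn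
  obtain ⟨m, hm⟩ : ∃ m : ℕ, (m : ZMod p) = ((n : ZMod p) - 1)⁻¹ :=
    ⟨(((n : ZMod p) - 1)⁻¹).val, ZMod.natCast_zmod_val _⟩
  have h4 := InK1.nsmul hB0 m
  -- `m ((n - 1) y) = y`
  have h5 : m • (n • jzModule.pt N p y - jzModule.pt N p y) = jzModule.pt N p y := by
    have h6 : ((m : ZMod p) • (((n : ZMod p) - 1) • y) : (jzModule N p).J) = y := by
      rw [smul_smul, hm, inv_mul_cancel₀ hne, one_smul]
    have h7 : (((n : ZMod p) - 1) • y : (jzModule N p).J) = n • y - y := by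
      rw [sub_smul, one_smul, Nat.cast_smul_eq_nsmul]
    rw [h7, Nat.cast_smul_eq_nsmul] at h6
    have h8 := congrArg (jzModule.pt N p) h6
    exact (show m • (n • jzModule.pt N p y - jzModule.pt N p y) =
      jzModule.pt N p (m • (n • y - y)) from rfl).trans h8
  rw [h5] at h4
  exact h4

include hab hp in
/-- **(Y0)**: a subspace on which inertia acts through the cyclotomic character lies in
`G0 = K1 ∩ w K1`. -/
theorem isCycOn_le (hp2 : p ≠ 2) (hA : A.LiesOverPrime p)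
    (Y : Submodule (ZMod p) (jzModule (M * p) p).J) (hY : (jzModule (M * p) p).IsCycOn A Y) :
    Y ≤ toric p M a b hab hp p A := by
  intro y hy
  obtain ⟨σ, hσ, ζ, hζ, hne⟩ := stmt_CycRam p hp hp2 A hA
  obtain ⟨n, hn⟩ := exists_pow_on_roots p hp.pos σ
  have hc : (n : ZMod p) ≠ 1 := cast_ne_one_of_moves hp hn hζ hne
  have hσy := hY σ hσ n hn y hy
  refine (mem_toric_iff p M a b hab hp p A y).2 ⟨inK1_of_scalar p A hp y hσ hc hσy, ?_⟩
  -- the same for `w y`
  have hw : (jzModule (M * p) p).gal σ (wTors p M a b hab hp p y) =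
      (n : ZMod p) • wTors p M a b hab hp p y := by
    have h1 := wTors_gal p M a b hab hp p σ y
    exact h1.trans ((congrArg (wTors p M a b hab hp p) hσy).trans
      (map_smul (wTors p M a b hab hp p) _ _))
  exact inK1_of_scalar p A hp (wTors p M a b hab hp p y) hσ hc hw

end Concrete

/-- **(RAY-K3).**  The connected part `G0 = K1 ∩ w K1` of `J₀(M p)[p]` has no non-zero element
fixed by the inertia group of `ℚ_p^nr(ω)`, `ω ^ p = u`, `u` an integer prime to `p`. -/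
def Stmt_RayK3 : Prop :=
  ∀ (p : ℕ), 5 ≤ p → ∀ (M : ℕ) (a b : ℤ) (hab : a * p + b * M = 1) (hp : p.Prime)
    [NeZero (M * p)],
    ∀ A : ValuationSubring (AlgebraicClosure ℚ), A.LiesOverPrime p →
    ∀ (x : (jzModule (M * p) p).J) (u : ℤ) (ω : AlgebraicClosure ℚ),
      InK1 A (M * p) p (jzModule.pt (M * p) p x) →
      InK1 A (M * p) p (wS p M a b hab hp • jzModule.pt (M * p) p x) →
      ¬ (p : ℤ) ∣ u → ω ^ p = (u : AlgebraicClosure ℚ) →
      (∀ σ ∈ A.inertiaSubgroupIn ℚ, σ ω = ω → (jzModule (M * p) p).gal σ x = x) →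
      x = 0

/-- **(e0)**: `Stmt_RayK3` gives `Stmt_RayP`. -/
theorem stmt_RayP_of_rayK3 (h : Stmt_RayK3) : Stmt_RayP := by
  intro p hp5 M a b hab hp _ A hA x Y u hx hwx hY hsub hu hfix
  have hp2 : p ≠ 2 := by omega
  refine ray_of_rayK3 (jzModule (M * p) p) A hp (toric p M a b hab hp p A)
    (fun Y' hY' => isCycOn_le p M a b hab hp A hp2 hA Y' hY') ?_ x Y u
    ((mem_toric_iff p M a b hab hp p A x).2 ⟨hx, hwx⟩) hY hsub hu hfix
  intro x' u' ω hx' hu' hω hfix'
  have hx'' := (mem_toric_iff p M a b hab hp p A x').1 hx'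
  exact h p hp5 M a b hab hp A hA x' u' ω hx''.1 hx''.2 hu' hω hfix'

end Fermat.Agent.S44
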