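/-
helper93, row 38 (S44), `NOTES/plan/L_S44.md` §12.3: CORRECTION of (RAY-K3).

`S44.Stmt_RayK3` (BadP4.lean) quantifies over ALL `p`-th roots `ω` of `u`.  For `u = z ^ p` with
`z` in the inertia field `K₀` and `ω = ζ z`, `ζ ≠ 1` a `p`-th root of unity, the stabiliser of `ω`
in the inertia group is the kernel of the cyclotomic character, which fixes the toric part
`μ_p ^ t ⊆ G0`: that statement is too strong.  The correct statement needs a GOOD root: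

* `IsGoodRoot p A u ω` : `ω ^ p = u` and some element of the inertia group fixes `ω` and moves a
  `p`-th root of unity (the cyclotomic character is non-trivial on the stabiliser of `ω`).
* `Stmt_GoodRoot` **(GOOD-ROOT)** : every integer `u` prime to `p` has a good `p`-th root
  (`ω = z ∈ K₀` if `u` is a `p`-th power in `K₀`; any root otherwise).
* `Stmt_RayK3x` **(RAY-K3, corrected)** : `G0` has no non-zero point fixed by the stabiliser of a
  good root.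
* `stmt_RayP_of_rayK3x : Stmt_RayK3x → Stmt_GoodRoot → Stmt_RayP`.
-/
import Fermat.Agent.S44.BadP4

set_option autoImplicit false
set_option synthInstance.maxHeartbeats 400000
set_option maxHeartbeats 1000000

noncomputable section

open AlgebraicCurve ModularCurve

namespace Fermat.Agent.S44

open Fermat.Agent.BAD Fermat.Agent.S43.BadQ Fermat.Agent.S28.H73 Fermat.Agent.RED.H73

/-- `ω` is a good `p`-th root of `u`: some element of the inertia group at `A` fixes `ω` and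
moves a `p`-th root of unity. -/
def IsGoodRoot (p : ℕ) (A : ValuationSubring (AlgebraicClosure ℚ)) (u : ℤ)
    (ω : AlgebraicClosure ℚ) : Prop :=
  ω ^ p = (u : AlgebraicClosure ℚ) ∧
    ∃ τ₀ ∈ A.inertiaSubgroupIn ℚ, τ₀ ω = ω ∧
      ∃ ζ : AlgebraicClosure ℚ, ζ ^ p = 1 ∧ τ₀ ζ ≠ ζ

/-- **(GOOD-ROOT)**: every integer prime to `p` has a good `p`-th root. -/
def Stmt_GoodRoot : Prop :=
  ∀ (p : ℕ), p.Prime → p ≠ 2 → ∀ A : ValuationSubring (AlgebraicClosure ℚ),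
    A.LiesOverPrime p → ∀ u : ℤ, ¬ (p : ℤ) ∣ u → ∃ ω : AlgebraicClosure ℚ, IsGoodRoot p A u ω

section Abstract

variable {p : ℕ} (H : HeckeGaloisModule p) (A : ValuationSubring (AlgebraicClosure ℚ))

/-- **(e0), abstract form, corrected.** -/
theorem ray_of_rayK3x (hp : p.Prime) (G0 : Submodule (ZMod p) H.J)
    (hY0 : ∀ Y : Submodule (ZMod p) H.J, H.IsCycOn A Y → Y ≤ G0)
    (hK3 : ∀ (x : H.J) (u : ℤ) (ω : AlgebraicClosure ℚ), x ∈ G0 → ¬ (p : ℤ) ∣ u →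
      ω ^ p = (u : AlgebraicClosure ℚ) →
      (∃ τ₀ ∈ A.inertiaSubgroupIn ℚ, τ₀ ω = ω ∧
        ∃ ζ : AlgebraicClosure ℚ, ζ ^ p = 1 ∧ τ₀ ζ ≠ ζ) →
      (∀ σ ∈ A.inertiaSubgroupIn ℚ, σ ω = ω → H.gal σ x = x) → x = 0)
    (hroot : ∀ u : ℤ, ¬ (p : ℤ) ∣ u → ∃ ω : AlgebraicClosure ℚ,
      ω ^ p = (u : AlgebraicClosure ℚ) ∧ ∃ τ₀ ∈ A.inertiaSubgroupIn ℚ, τ₀ ω = ω ∧
        ∃ ζ : AlgebraicClosure ℚ, ζ ^ p = 1 ∧ τ₀ ζ ≠ ζ)
    (x : H.J) (Y : Submodule (ZMod p) H.J) (u : ℤ) (hx : x ∈ G0) (hY : H.IsCycOn A Y)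
    (hsub : ∀ σ ∈ A.inertiaSubgroupIn ℚ, H.gal σ x - x ∈ Y) (hu : ¬ (p : ℤ) ∣ u)
    (hfix : H.IsPeuFixed A u x) : x ∈ Y := by
  haveI : Fact p.Prime := ⟨hp⟩
  have hp0 : (p : AlgebraicClosure ℚ) ≠ 0 := by
    exact_mod_cast hp.ne_zero
  -- a good `p`-th root of `u`
  obtain ⟨ω, hω, hgood⟩ := hroot u hu
  have hω0 : ω ≠ 0 := by
    rintro rfl
    rw [zero_pow hp.ne_zero] at hω
    have hu0 : u = 0 := by exact_mod_cast hω.symm
    exact hu (hu0 ▸ dvd_zero _)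
  -- an element fixing `μ_p` and `ω` fixes every `p`-th root of `u`
  have hall : ∀ σ : GQ, (∀ ζ : AlgebraicClosure ℚ, ζ ^ p = 1 → σ ζ = ζ) → σ ω = ω →
      ∀ z : AlgebraicClosure ℚ, z ^ p = (u : AlgebraicClosure ℚ) → σ z = z := by
    intro σ h1 h2 z hz
    have hq : (z / ω) ^ p = 1 := by
      rw [div_pow, hz, hω, div_self]
      rw [← hω]
      exact pow_ne_zero _ hω0
    have h3 := h1 (z / ω) hq
    have hz' : z = (z / ω) * ω := by field_simp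
    rw [hz', map_mul, h3, h2]
  -- the elements of `I₂` fix `g x` for every `g` in the inertia group
  have hI2 : ∀ γ ∈ A.inertiaSubgroupIn ℚ, ∀ g ∈ A.inertiaSubgroupIn ℚ,
      (∀ ζ : AlgebraicClosure ℚ, ζ ^ p = 1 → γ ζ = ζ) → γ ω = ω →
      H.gal γ (H.gal g x) = H.gal g x := by
    intro γ hγ g hg h1 h2
    -- `γ' = g⁻¹ γ g`
    have hγ' : g⁻¹ * γ * g ∈ A.inertiaSubgroupIn ℚ :=
      Subgroup.mul_mem _ (Subgroup.mul_mem _ (Subgroup.inv_mem _ hg) hγ) hg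
    have hginv : ∀ z : AlgebraicClosure ℚ, g⁻¹ (g z) = z := by
      intro z
      rw [← AlgEquiv.mul_apply, inv_mul_cancel]
      rfl
    have h1' : ∀ ζ : AlgebraicClosure ℚ, ζ ^ p = 1 → (g⁻¹ * γ * g) ζ = ζ := by
      intro ζ hζ
      rw [AlgEquiv.mul_apply, AlgEquiv.mul_apply, h1 (g ζ) (by rw [← map_pow, hζ, map_one]),
        hginv]
    have h2' : ∀ z : AlgebraicClosure ℚ, z ^ p = (u : AlgebraicClosure ℚ) →
        (g⁻¹ * γ * g) z = z := by
      intro z hz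
      have hgz : (g z) ^ p = (u : AlgebraicClosure ℚ) := by
        rw [← map_pow, hz, map_intCast]
      rw [AlgEquiv.mul_apply, AlgEquiv.mul_apply, hall γ h1 h2 (g z) hgz, hginv]
    have h3 := hfix (g⁻¹ * γ * g) hγ' h1' h2'
    have h4 : H.gal γ (H.gal g x) = H.gal g (H.gal (g⁻¹ * γ * g) x) := by
      rw [← Module.End.mul_apply, ← Module.End.mul_apply, ← map_mul, ← map_mul]
      congr 2
      group
    rw [h4, h3]
  obtain ⟨τ₀, hτ₀, hτ₀ω, ζ₀, hζ₀, hne⟩ := hgood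
  obtain ⟨n₀, hn₀⟩ := exists_pow_on_roots p hp.pos τ₀
  have hc : (n₀ : ZMod p) ≠ 1 := cast_ne_one_of_moves hp hn₀ hζ₀ hne
  have hc' : (n₀ : ZMod p) - 1 ≠ 0 := sub_ne_zero.mpr hc
  set y₀ : H.J := H.gal τ₀ x - x with hy₀
  have hy₀Y : y₀ ∈ Y := hsub τ₀ hτ₀
  set y : H.J := ((n₀ : ZMod p) - 1)⁻¹ • y₀ with hy
  have hyY : y ∈ Y := Y.smul_mem _ hy₀Y
  -- `x - y` is fixed by `I₃`
  have hfix3 : ∀ τ ∈ A.inertiaSubgroupIn ℚ, τ ω = ω → H.gal τ (x - y) = x - y := by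
    intro τ hτ hτω
    obtain ⟨n, hn⟩ := exists_pow_on_roots p hp.pos τ
    set yτ : H.J := H.gal τ x - x with hyτ
    have hyτY : yτ ∈ Y := hsub τ hτ
    -- the commutator
    have hcomm : H.gal (τ * τ₀) x = H.gal (τ₀ * τ) x := by
      set γ : GQ := τ * τ₀ * τ⁻¹ * τ₀⁻¹ with hγ
      have hγI : γ ∈ A.inertiaSubgroupIn ℚ :=
        Subgroup.mul_mem _ (Subgroup.mul_mem _ (Subgroup.mul_mem _ hτ hτ₀)
          (Subgroup.inv_mem _ hτ)) (Subgroup.inv_mem _ hτ₀)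
      have hinv : ∀ (g : GQ) (z : AlgebraicClosure ℚ), g z = z → g⁻¹ z = z := by
        intro g z hz
        calc g⁻¹ z = g⁻¹ (g z) := by rw [hz]
          _ = z := by
            rw [← AlgEquiv.mul_apply, inv_mul_cancel]
            rfl
      have hγω : γ ω = ω := by
        rw [hγ, AlgEquiv.mul_apply, AlgEquiv.mul_apply, AlgEquiv.mul_apply,
          hinv τ₀ ω hτ₀ω, hinv τ ω hτω, hτ₀ω, hτω]
      have hγζ : ∀ ζ : AlgebraicClosure ℚ, ζ ^ p = 1 → γ ζ = ζ := by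
        intro ζ hζ
        -- `τ⁻¹ τ₀⁻¹ ζ = τ₀⁻¹ τ⁻¹ ζ` since both `τ`, `τ₀` act by powers
        have hpow : ∀ (g : GQ) (m : ℕ), (∀ ξ : AlgebraicClosure ℚ, ξ ^ p = 1 → g ξ = ξ ^ m) →
            ∀ ξ : AlgebraicClosure ℚ, ξ ^ p = 1 → (g ξ) ^ p = 1 := by
          intro g m _ ξ hξ
          rw [← map_pow, hξ, map_one]
        have e1 : (τ * τ₀) ζ = (τ₀ * τ) ζ := by
          rw [AlgEquiv.mul_apply, AlgEquiv.mul_apply, hn₀ ζ hζ, hn ζ hζ, map_pow, map_pow,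
            hn ζ hζ, hn₀ ζ hζ, ← pow_mul, ← pow_mul, mul_comm]
        have e2 : γ = (τ * τ₀) * (τ₀ * τ)⁻¹ := by
          rw [hγ]
          group
        rw [e2, AlgEquiv.mul_apply]
        have e3 : (τ₀ * τ)⁻¹ ζ = (τ * τ₀)⁻¹ ζ := by
          have h5 : ((τ₀ * τ)⁻¹ ζ) ^ p = 1 := by rw [← map_pow, hζ, map_one]
          have h6 : (τ * τ₀) ((τ₀ * τ)⁻¹ ζ) = ζ := by
            have e1' : (τ * τ₀) ((τ₀ * τ)⁻¹ ζ) = (τ₀ * τ) ((τ₀ * τ)⁻¹ ζ) := by
              rw [AlgEquiv.mul_apply, AlgEquiv.mul_apply, hn₀ _ h5, hn _ h5, map_pow, map_pow,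
                hn _ h5, hn₀ _ h5, ← pow_mul, ← pow_mul, mul_comm]
            rw [e1', ← AlgEquiv.mul_apply, mul_inv_cancel]
            rfl
          calc (τ₀ * τ)⁻¹ ζ = (τ * τ₀)⁻¹ ((τ * τ₀) ((τ₀ * τ)⁻¹ ζ)) := by
                rw [← AlgEquiv.mul_apply, inv_mul_cancel]
                rfl
            _ = (τ * τ₀)⁻¹ ζ := by rw [h6]
        rw [e3, ← AlgEquiv.mul_apply, mul_inv_cancel]
        rfl
      have h7 := hI2 γ hγI (τ₀ * τ) (Subgroup.mul_mem _ hτ₀ hτ) hγζ hγω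
      have h8 : H.gal (τ * τ₀) x = H.gal γ (H.gal (τ₀ * τ) x) := by
        rw [← Module.End.mul_apply, ← map_mul]
        congr 2
        rw [hγ]
        group
      rw [h8, h7]
    -- the cocycle relation
    have hτy₀ : H.gal τ y₀ = (n : ZMod p) • y₀ := hY τ hτ n hn y₀ hy₀Y
    have hτ₀yτ : H.gal τ₀ yτ = (n₀ : ZMod p) • yτ := hY τ₀ hτ₀ n₀ hn₀ yτ hyτY
    have e1 : H.gal (τ * τ₀) x = x + yτ + (n : ZMod p) • y₀ := by
      rw [map_mul, Module.End.mul_apply]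
      have : H.gal τ₀ x = x + y₀ := by rw [hy₀]; abel
      rw [this, map_add, hτy₀]
      have : H.gal τ x = x + yτ := by rw [hyτ]; abel
      rw [this]
    have e2 : H.gal (τ₀ * τ) x = x + y₀ + (n₀ : ZMod p) • yτ := by
      rw [map_mul, Module.End.mul_apply]
      have : H.gal τ x = x + yτ := by rw [hyτ]; abel
      rw [this, map_add, hτ₀yτ]
      have : H.gal τ₀ x = x + y₀ := by rw [hy₀]; abel
      rw [this]
    have e3 : ((n₀ : ZMod p) - 1) • yτ = ((n : ZMod p) - 1) • y₀ := by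
      have h9 : x + yτ + (n : ZMod p) • y₀ = x + y₀ + (n₀ : ZMod p) • yτ := by
        rw [← e1, ← e2, hcomm]
      rw [sub_smul, sub_smul, one_smul, one_smul]
      have h10 : yτ + (n : ZMod p) • y₀ = y₀ + (n₀ : ZMod p) • yτ := by
        rw [add_assoc, add_assoc] at h9
        exact add_left_cancel h9
      rw [sub_eq_sub_iff_add_eq_add, add_comm _ y₀, ← h10, add_comm]
    have e4 : yτ = ((n : ZMod p) - 1) • y := by
      rw [hy, smul_smul, mul_comm, ← smul_smul, ← e3, smul_smul, inv_mul_cancel₀ hc', one_smul]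
    have hτy : H.gal τ y = (n : ZMod p) • y := hY τ hτ n hn y hyY
    rw [map_sub, hτy]
    have : H.gal τ x = x + yτ := by rw [hyτ]; abel
    rw [this, e4, sub_smul, one_smul]
    abel
  have hyG0 : y ∈ G0 := hY0 Y hY hyY
  have hzero := hK3 (x - y) u ω (G0.sub_mem hx hyG0) hu hω
    ⟨τ₀, hτ₀, hτ₀ω, ζ₀, hζ₀, hne⟩ hfix3
  have hxy : x = y := sub_eq_zero.mp hzero
  rw [hxy]
  exact hyY
end Abstract

/-- **(RAY-K3), corrected.**  The connected part `G0 = K1 ∩ w K1` of `J₀(M p)[p]` has no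
non-zero element fixed by the stabiliser in the inertia group of a GOOD `p`-th root `ω` of `u`,
`u` an integer prime to `p`. -/
def Stmt_RayK3x : Prop :=
  ∀ (p : ℕ), 5 ≤ p → ∀ (M : ℕ) (a b : ℤ) (hab : a * p + b * M = 1) (hp : p.Prime)
    [NeZero (M * p)],
    ∀ A : ValuationSubring (AlgebraicClosure ℚ), A.LiesOverPrime p →
    ∀ (x : (jzModule (M * p) p).J) (u : ℤ) (ω : AlgebraicClosure ℚ),
      InK1 A (M * p) p (jzModule.pt (M * p) p x) →
      InK1 A (M * p) p (wS p M a b hab hp • jzModule.pt (M * p) p x) →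
      ¬ (p : ℤ) ∣ u → IsGoodRoot p A u ω →
      (∀ σ ∈ A.inertiaSubgroupIn ℚ, σ ω = ω → (jzModule (M * p) p).gal σ x = x) →
      x = 0

/-- **(e0), corrected**: `Stmt_RayK3x` and `Stmt_GoodRoot` give `Stmt_RayP`. -/
theorem stmt_RayP_of_rayK3x (h : Stmt_RayK3x) (hg : Stmt_GoodRoot) : Stmt_RayP := by
  intro p hp5 M a b hab hp _ A hA x Y u hx hwx hY hsub hu hfix
  have hp2 : p ≠ 2 := by omega
  refine ray_of_rayK3x (jzModule (M * p) p) A hp (toric p M a b hab hp p A)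
    (fun Y' hY' => isCycOn_le p M a b hab hp A hp2 hA Y' hY') ?_ ?_ x Y u
    ((mem_toric_iff p M a b hab hp p A x).2 ⟨hx, hwx⟩) hY hsub hu hfix
  · intro x' u' ω hx' hu' hω hgood hfix'
    have hx'' := (mem_toric_iff p M a b hab hp p A x').1 hx'
    exact h p hp5 M a b hab hp A hA x' u' ω hx''.1 hx''.2 hu' ⟨hω, hgood⟩ hfix'
  · intro u' hu'
    obtain ⟨ω, hω, hgood⟩ := hg p hp hp2 A hA u' hu'
    exact ⟨ω, hω, hgood⟩

end Fermat.Agent.S44
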