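/-
helper66, row 38 (S44), leaf GOOD-ROOT (helper93, `S44/BadP5.lean`):
every integer `u` prime to `p` has a good `p`-th root at a place `A` of `ℚ̄` over `p`
(`p` odd): a root `ω` which is fixed by some element of the inertia group moving a `p`-th root
of unity.

Proof (helper93's sketch), from helper97's `karith_dichotomy` and `stmt_CycRam`:
* tame case `u = z ^ p`, `z ∈ K₀`: `ω := z` is fixed by all of the inertia group;
* wild case: `(t ω) ^ p = u`, `σ ζ = ζ`, `σ ω = ζ ω` with `σ` in the inertia group: if `τ'` in the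
  inertia group moves `ζ` and `τ' ω = ζ ^ j ω`, then `τ₀ := σ ^ (p - j) τ'` fixes `t ω` and
  moves `ζ`.
-/
import Fermat.Agent.S44.BadP5
import Fermat.Agent.BADP.H97_KArithQ

set_option autoImplicit false

noncomputable section

namespace Fermat.Agent.S44.H66

open Fermat.Agent.S44 Fermat.Agent.BADP.H97

/-- Powers of `σ` with `σ ζ = ζ`, `σ ω = ζ ω`. -/
theorem pow_apply_of {σ : AlgebraicClosure ℚ ≃ₐ[ℚ] AlgebraicClosure ℚ}
    {ζ ω : AlgebraicClosure ℚ} (hζ : σ ζ = ζ) (hω : σ ω = ζ * ω) (m : ℕ) :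
    (σ ^ m) ζ = ζ ∧ (σ ^ m) ω = ζ ^ m * ω := by
  induction m with
  | zero =>
    refine ⟨rfl, ?_⟩
    rw [pow_zero, pow_zero, one_mul]
    rfl
  | succ k ih =>
    obtain ⟨h1, h2⟩ := ih
    constructor
    · rw [pow_succ, AlgEquiv.mul_apply, hζ, h1]
    · rw [pow_succ, AlgEquiv.mul_apply, hω, map_mul, h1, h2]
      ring

/-- **(GOOD-ROOT)** (helper66). -/
theorem stmt_GoodRoot : Stmt_GoodRoot := by
  intro p hp hp2 A hA u hu
  have : NeZero ((p : ℕ) : AlgebraicClosure ℚ) := ⟨Nat.cast_ne_zero.2 hp.ne_zero⟩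
  have : NeZero p := ⟨hp.ne_zero⟩
  obtain ⟨ζ, hζ⟩ := HasEnoughRootsOfUnity.exists_primitiveRoot (AlgebraicClosure ℚ) p
  obtain ⟨τ', hτ', ζ', hζ', hne'⟩ := stmt_CycRam p hp hp2 A hA
  rcases karith_dichotomy hp hp2 hA u hu hζ with
    ⟨z, hzK, hz⟩ | ⟨t, ω, σ, htK, ht, htω, hσ, hK⟩
  · exact ⟨z, hz, τ', hτ', (mem_K0.1 hzK) τ' hτ', ζ', hζ', hne'⟩
  · -- `τ'` moves `ζ`
    have hτζ : τ' ζ ≠ ζ := by
      intro h
      obtain ⟨k, -, hk⟩ := hζ.eq_pow_of_pow_eq_one hζ'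
      apply hne'
      rw [← hk, map_pow, h]
    have hu0 : (u : AlgebraicClosure ℚ) ≠ 0 := by
      intro h0
      have : u = 0 := by exact_mod_cast h0
      exact hu (this ▸ dvd_zero _)
    have hω0 : ω ≠ 0 := by
      rintro rfl
      rw [mul_zero, zero_pow hp.ne_zero] at htω
      exact hu0 htω.symm
    have hσζ : σ ζ = ζ := hK.σζ
    have hσω : σ ω = ζ * ω := hK.σω
    -- `τ' ω = ζ ^ j ω`
    obtain ⟨u1, hu1K, -, hωp⟩ := hK.pow
    have hfixc : τ' (1 + (p : AlgebraicClosure ℚ) * u1) = 1 + (p : AlgebraicClosure ℚ) * u1 :=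
      (mem_K0.1 (add_mem (one_mem _) (mul_mem (natCast_mem_K0 p) hu1K))) τ' hτ'
    have hτω : (τ' ω / ω) ^ p = 1 := by
      rw [div_pow, ← map_pow, hωp, hfixc, div_self]
      rw [← hωp]
      exact pow_ne_zero _ hω0
    obtain ⟨j, hj, hjζ⟩ := hζ.eq_pow_of_pow_eq_one hτω
    have hτω' : τ' ω = ζ ^ j * ω := by
      rw [hjζ, div_mul_cancel₀ _ hω0]
    -- `τ' ζ = ζ ^ n`
    have hτζp : (τ' ζ) ^ p = 1 := by rw [← map_pow, hζ.pow_eq_one, map_one]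
    obtain ⟨n, -, hn⟩ := hζ.eq_pow_of_pow_eq_one hτζp
    obtain ⟨h1, h2⟩ := pow_apply_of hσζ hσω (p - j)
    have hτ₀ : σ ^ (p - j) * τ' ∈ A.inertiaSubgroupIn ℚ :=
      Subgroup.mul_mem _ (Subgroup.pow_mem _ hσ _) hτ'
    have hτ₀ω : (σ ^ (p - j) * τ') ω = ω := by
      rw [AlgEquiv.mul_apply, hτω', map_mul, map_pow, h1, h2, ← mul_assoc, ← pow_add,
        Nat.add_sub_cancel' hj.le, hζ.pow_eq_one, one_mul]
    refine ⟨t * ω, htω, σ ^ (p - j) * τ', hτ₀, ?_, ζ, hζ.pow_eq_one, ?_⟩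
    · rw [map_mul, hτ₀ω, (mem_K0.1 htK) _ hτ₀]
    · rw [AlgEquiv.mul_apply, ← hn, map_pow, h1, hn]
      exact hτζ

end Fermat.Agent.S44.H66
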