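/-
helper93, row 38 (S44): the concrete Hecke-Galois module `J₀(N)(ℚ̄)[p]` and the two geometric
packages about it.

* `jzModule N p`   : `J₀(N)[p]` (prelude `Pic0.torsion` of the function field of `X₀(N)` over `ℚ̄`)
                     with the prelude's Galois action and Hecke operators `heckeOperatorBar`.
* `Stmt_TateModP`  : (A1) the module is finite, continuous, satisfies Eichler-Shimura and supports
                     every eigenform of level `N`.  Source: clusters G (G-TOR, G-RED) and Betti.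
* `Stmt_BadP`      : (A2) the structure at a place over `p ∥ N` (`HasBadFiltration`, BAD_p).
* `stmt_Module_of` : A1 + A2 + `Stmt_CycRam` give package A (`Stmt_Module`) of the S44 wiring.
-/
import Fermat.Agent.S44.BadP
import Fermat.Prelude.Def_ModularCurve_HeckeModule

set_option autoImplicit false

open AlgebraicCurve ModularCurve

namespace Fermat.Agent.S44

/-- The `p`-torsion of `J₀(N)(ℚ̄)`. -/
abbrev JTors (N p : ℕ) : Type :=
  Pic0.torsion (AlgebraicClosure ℚ) (modularFunctionFieldBar N) p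

/-- The Hecke operator `T_ℓ` on the `p`-torsion of `J₀(N)`, as an additive map. -/
noncomputable def heckeTorsAdd (N p : ℕ) [NeZero N] (ℓ : Nat.Primes) :
    JTors N p →+ JTors N p where
  toFun x := ⟨heckeOperatorBar N ℓ (x : JZero N), by
    rw [Pic0.mem_torsion, ← map_zsmul, Pic0.mem_torsion.mp x.property, _root_.map_zero]⟩
  map_zero' := by
    apply Subtype.ext
    simp
  map_add' x y := by
    apply Subtype.ext
    simp

/-- The Hecke operator `T_ℓ` on the `p`-torsion of `J₀(N)`. -/
noncomputable def heckeTors (N p : ℕ) [NeZero N] (ℓ : Nat.Primes) :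
    Module.End (ZMod p) (JTors N p) :=
  (heckeTorsAdd N p ℓ).toZModLinearMap p

@[simp]
theorem coe_heckeTors_apply (N p : ℕ) [NeZero N] (ℓ : Nat.Primes) (x : JTors N p) :
    ((heckeTors N p ℓ x : JTors N p) : JZero N) = heckeOperatorBar N ℓ (x : JZero N) := rfl

open Classical in
/-- **The Hecke-Galois module `J₀(N)(ℚ̄)[p]`.**  The operator `T ℓ` is the Hecke operator of the
prelude for the primes `ℓ ∤ N` and is `0` for every other `ℓ` (these are never used). -/
noncomputable def jzModule (N p : ℕ) [NeZero N] : HeckeGaloisModule p where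
  J := JTors N p
  gal := JZero.torsionGaloisRep N p
  T := fun ℓ => if h : ℓ.Prime ∧ ¬ ℓ ∣ N then heckeTors N p ⟨ℓ, h.1⟩ else 0

/-- The point of `J₀(N)` underlying an element of the module. -/
def jzModule.pt (N p : ℕ) [NeZero N] (x : (jzModule N p).J) : JZero N :=
  ((show JTors N p from x) : JZero N)

theorem jzModule.pt_injective (N p : ℕ) [NeZero N] :
    Function.Injective (jzModule.pt N p) := fun _ _ h => Subtype.ext h

theorem jzModule.pt_gal (N p : ℕ) [NeZero N] (σ : GQ) (x : (jzModule N p).J) :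
    jzModule.pt N p ((jzModule N p).gal σ x) = σ • jzModule.pt N p x :=
  rfl

theorem jzModule.T_eq (N p : ℕ) [NeZero N] {ℓ : ℕ} (hℓ : ℓ.Prime) (hℓN : ¬ ℓ ∣ N) :
    (jzModule N p).T ℓ = heckeTors N p ⟨ℓ, hℓ⟩ :=
  dif_pos ⟨hℓ, hℓN⟩

theorem jzModule.T_eq_zero (N p : ℕ) [NeZero N] {ℓ : ℕ} (h : ¬ (ℓ.Prime ∧ ¬ ℓ ∣ N)) :
    (jzModule N p).T ℓ = 0 :=
  dif_neg h

theorem jzModule.pt_T (N p : ℕ) [NeZero N] {ℓ : ℕ} (hℓ : ℓ.Prime) (hℓN : ¬ ℓ ∣ N)
    (x : (jzModule N p).J) :
    jzModule.pt N p ((jzModule N p).T ℓ x) = heckeOperatorBar N ⟨ℓ, hℓ⟩ (jzModule.pt N p x) := by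
  rw [jzModule.T_eq N p hℓ hℓN]
  rfl

theorem jzModule.pt_torsion (N p : ℕ) [NeZero N] (x : (jzModule N p).J) :
    (p : ℤ) • jzModule.pt N p x = 0 :=
  Pic0.mem_torsion.mp (show JTors N p from x).property

/-- **Package A1 (Tate package mod `p`).**  `J₀(N)[p]` is finite, the Galois action factors
through a finite extension and commutes with the Hecke operators, which commute with each other;
it is unramified outside `N p` with the Eichler-Shimura relation; every eigenform of level `N`
has an eigenvector in it. -/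
def Stmt_TateModP : Prop :=
  ∀ (p : ℕ), p.Prime → p ≠ 2 → ∀ (N : ℕ) [NeZero N],
    (jzModule N p).IsContinuous ∧ (jzModule N p).EichlerShimura N ∧ (jzModule N p).HasSupport N

/-- **Package A2 (BAD_p).**  The structure of `J₀(N)[p]` at a place over `p ∥ N`. -/
def Stmt_BadP : Prop :=
  ∀ (p : ℕ), p.Prime → p ≠ 2 → ∀ (N : ℕ) [NeZero N], p ∣ N → ¬ p ^ 2 ∣ N →
    ∀ A : ValuationSubring (AlgebraicClosure ℚ), A.LiesOverPrime p →
      (jzModule N p).HasBadFiltration N A

/-- **Package A from A1, A2 and the ramification of the cyclotomic character.** -/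
theorem stmt_Module_of (h1 : Stmt_TateModP) (h2 : Stmt_BadP) (h3 : Stmt_CycRam) : Stmt_Module := by
  intro p hp hp2 N hN hpN hp2N A hA
  haveI : NeZero N := ⟨hN.ne'⟩
  obtain ⟨hc, hES, hsupp⟩ := h1 p hp hp2 N
  exact ⟨jzModule N p, hc, hES, hsupp,
    removesP_of_bad hp (jzModule N p) N A (h3 p hp hp2 A hA) (h2 p hp hp2 N hpN hp2N A hA)⟩

end Fermat.Agent.S44
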