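/-
helper93, row 38: package D of `Fermat/Agent/S44/Defs.lean` (every prime has a place of `ℚ̄`
above it), from the shared library `Lib/FrobExists`.
-/
import Fermat.Agent.S44.Defs
import Fermat.Agent.Lib.FrobExists

set_option autoImplicit false

namespace Fermat.Agent.S44

theorem stmt_PlaceOver : Stmt_PlaceOver := fun p hp =>
  Fermat.Agent.Lib.FrobExists.exists_liesOverPrime p hp

end Fermat.Agent.S44
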