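/-
helper93, row 38: wiring of S44 (`FreyPackage.level_lowering_at_p_of_conductorLevel`).

`result_of_inputs` proves the frozen statement S44 from the packages of `Defs.lean`
(`Stmt_Module`, `Stmt_Recovery`, `Stmt_FreyFiniteAtP`, `Stmt_PlaceOver`, `Stmt_NonEis`).
Complete proof; the packages are hypotheses.  Plan: `NOTES/plan/L_S44.md`.
-/
import Fermat.Agent.S44.Defs
import Fermat.Agent.S04.H59_FreySemistable

set_option autoImplicit false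

open WeierstrassCurve WeierstrassCurve.Affine WeierstrassCurve.Affine.Point
open scoped WeierstrassCurve.Affine

namespace Fermat.Agent.S44

/-- The finite set of primes dividing `n`, for `n ≠ 0`. -/
theorem mem_primeFactors_of_dvd_natAbs {ℓ : ℕ} {z : ℤ} (hℓ : ℓ.Prime) (hz : z ≠ 0)
    (h : (ℓ : ℤ) ∣ z) : ℓ ∈ z.natAbs.primeFactors := by
  rw [Nat.mem_primeFactors]
  refine ⟨hℓ, ?_, Int.natAbs_ne_zero.mpr hz⟩
  exact Int.natCast_dvd.mp h

/-- An integral model of an elliptic curve over `ℚ` has non-zero discriminant as soon as the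
curve has.  (Not needed below, recorded for the packages.) -/
theorem prime_not_mem_of_good {ℓ : ℕ} {W : WeierstrassCurve ℤ} (hℓ : ℓ.Prime) (hΔ : W.Δ ≠ 0)
    (h : ℓ ∉ W.Δ.natAbs.primeFactors) : W.IsGoodPrimeFor ℓ := fun hdvd =>
  h (mem_primeFactors_of_dvd_natAbs hℓ hΔ hdvd)

/-- **S44 from the packages, for a model with non-zero discriminant.** -/
theorem result_of_inputs_aux (hA : Stmt_Module) (hB : Stmt_Recovery) (hC : Stmt_FreyFiniteAtP)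
    (hD : Stmt_PlaceOver) (hE : Stmt_NonEis)
    (P : FreyPackage) {N : ℕ} (hcond : P.IsConductorLevel N) (hpN : P.p ∣ N)
    (hirr : GaloisRepIsIrreducible (K := AlgebraicClosure ℚ) ℚ P.freyCurve P.p)
    (f : CuspForm (CongruenceSubgroup.Gamma0 N) 2) (W : WeierstrassCurve ℤ)
    (𝔪 : Ideal (integralClosure ℤ ℂ)) (hf : f.IsNormalizedEigenform)
    (hW : W.IsIntegralModelOf P.freyCurve) (hΔ : W.Δ ≠ 0)
    (h𝔪 : 𝔪.IsMaximal) (hp𝔪 : (P.p : integralClosure ℤ ℂ) ∈ 𝔪)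
    (hcong : ∀ ℓ : ℕ, ℓ.Prime → W.IsGoodPrimeFor ℓ → ¬ ℓ ∣ N → ℓ ≠ P.p →
      ∃ a : integralClosure ℤ ℂ, (a : ℂ) = ModularFormClass.qCoeff f ℓ ∧
        a - ((W.apOfModel ℓ : ℤ) : integralClosure ℤ ℂ) ∈ 𝔪) :
    ∃ M : ℕ, M ∣ N ∧ ¬ P.p ∣ M ∧ P.ModularRepOfLevel M := by
  have hp : P.p.Prime := P.pp
  have hp2 : P.p ≠ 2 := by have := P.hp5; omega
  have hp2N : ¬ P.p ^ 2 ∣ N := hcond.sq_not_dvd hp
  obtain ⟨A, hAp⟩ := hD P.p hp
  obtain ⟨H, hcont, hES, hsupp, hrem⟩ := hA P.p hp hp2 N hcond.pos hpN hp2N A hAp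
  -- the exceptional set: the bad primes of the model
  set S : Finset ℕ := W.Δ.natAbs.primeFactors with hS
  have hgood : ∀ ℓ : ℕ, ℓ.Prime → ℓ ∉ S → W.IsGoodPrimeFor ℓ := fun ℓ hℓ h =>
    prime_not_mem_of_good hℓ hΔ h
  -- the eigenvector of level `N`
  obtain ⟨x, hx0, hx⟩ := hsupp f 𝔪 S (fun ℓ => W.apOfModel ℓ) hf h𝔪 hp𝔪
    (fun ℓ hℓ hℓS hℓN hℓp => hcong ℓ hℓ (hgood ℓ hℓ hℓS) hℓN hℓp)
  -- congruence recovery
  obtain ⟨ι, hinj, hequiv, hT⟩ := hB P.p hp hp2 N hcond.pos H hcont hES P.freyCurve W hW hirr S hgood x hx0 hx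
  -- the local structure at `p`
  obtain ⟨hdim, hfin⟩ := hC P (hcond.p_dvd_abc hpN) A hAp
  -- the system is not Eisenstein
  have hNE : ∃ ℓ : ℕ, ℓ.Prime ∧ ℓ ∉ S ∧ ¬ ℓ ∣ N ∧ ℓ ≠ P.p ∧
      ((W.apOfModel ℓ : ℤ) : ZMod P.p) ≠ 1 + (ℓ : ZMod P.p) := by
    obtain ⟨ℓ, hℓ, hℓW, hℓN, hℓp, hne⟩ := hE P W hW N hcond.pos hirr
    refine ⟨ℓ, hℓ, ?_, hℓN, hℓp, hne⟩
    intro hmem
    rw [hS, Nat.mem_primeFactors] at hmem
    exact hℓW (Int.natCast_dvd.mpr hmem.2.1)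
  -- Mazur's principle
  obtain ⟨g, 𝔪', hg, h𝔪', hp𝔪', hg_cong⟩ := hrem (Tors P.freyCurve P.p)
    (galoisRepModuleEnd (S := ℚ) (K := AlgebraicClosure ℚ) P.freyCurve.toAffine P.p)
    ι S (fun ℓ => W.apOfModel ℓ) hdim
    (fun W' hW' => hirr.2 W' (fun σ x hx => hW' σ x hx))
    hfin hinj (fun σ v => hequiv σ v) hT hNE
  refine ⟨N / P.p, Nat.div_dvd_of_dvd hpN, ?_, g, W, 𝔪', hg, hW, h𝔪', hp𝔪', ?_⟩
  · intro hdvd
    apply hp2N
    obtain ⟨c, hc⟩ := hdvd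
    refine ⟨c, ?_⟩
    have hN : N = P.p * (N / P.p) := (Nat.mul_div_cancel' hpN).symm
    rw [hN, hc, pow_two, mul_assoc]
  · intro ℓ hℓ hℓW hℓM hℓp
    have hℓN : ¬ ℓ ∣ N := by
      intro hdvd
      have hN : N = P.p * (N / P.p) := (Nat.mul_div_cancel' hpN).symm
      rw [hN] at hdvd
      rcases (Nat.Prime.dvd_mul hℓ).mp hdvd with h | h
      · exact hℓp ((Nat.prime_dvd_prime_iff_eq hℓ hp).mp h)
      · exact hℓM h
    have hℓS : ℓ ∉ S := by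
      intro hmem
      rw [hS, Nat.mem_primeFactors] at hmem
      exact hℓW (Int.natCast_dvd.mpr hmem.2.1)
    exact hg_cong ℓ hℓ hℓS hℓN hℓp

/-- An integral model of the Frey curve has non-zero discriminant. -/
theorem integralModel_Δ_ne_zero (P : FreyPackage) {W : WeierstrassCurve ℤ}
    (hW : W.IsIntegralModelOf P.freyCurve) : W.Δ ≠ 0 := by
  obtain ⟨C, hC⟩ := hW
  have h1 : P.freyCurve.Δ ≠ 0 := by
    rw [← Fermat.Agent.S04.H59.freyCurveInt_map P, WeierstrassCurve.map_Δ]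
    simpa using Fermat.Agent.S04.H59.freyCurveInt_Δ_ne_zero P
  have h2 : (C • P.freyCurve).Δ ≠ 0 := by
    rw [WeierstrassCurve.variableChange_Δ]
    exact mul_ne_zero (pow_ne_zero _ (Units.ne_zero _)) h1
  rw [hC, WeierstrassCurve.map_Δ] at h2
  intro h0
  exact h2 (by rw [h0, _root_.map_zero])

/-- **S44 from the packages.**  The conclusion is the frozen statement S44, verbatim. -/
theorem result_of_inputs (hA : Stmt_Module) (hB : Stmt_Recovery) (hC : Stmt_FreyFiniteAtP)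
    (hD : Stmt_PlaceOver) (hE : Stmt_NonEis)
    (P : FreyPackage) {N : ℕ} (hcond : P.IsConductorLevel N) (hpN : P.p ∣ N)
    (hirr : GaloisRepIsIrreducible (K := AlgebraicClosure ℚ) ℚ P.freyCurve P.p)
    (hmod : P.ModularRepOfLevel N) :
    ∃ M : ℕ, M ∣ N ∧ ¬ P.p ∣ M ∧ P.ModularRepOfLevel M := by
  obtain ⟨f, W, 𝔪, hf, hW, h𝔪, hp𝔪, hcong⟩ := hmod
  exact result_of_inputs_aux hA hB hC hD hE P hcond hpN hirr f W 𝔪 hf hW
    (integralModel_Δ_ne_zero P hW) h𝔪 hp𝔪 hcong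

end Fermat.Agent.S44
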