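/-
helper93, row 38 (S44): the wiring with the finished packages plugged in.

* package B `Stmt_Recovery` : helper52, `Fermat.Agent.L.H52.recovery` (items 61 + 62 + BLR);
* package D `Stmt_PlaceOver` : `stmt_PlaceOver` (item 56);
* package E `Stmt_NonEis`    : helper19, `Fermat.Agent.S41.H19.stmt_I3` (items 61 + 62);
* `Stmt_CycRam`              : `stmt_CycRam` (`CycRam.lean`, from Minkowski).

What is left for S44: package A `Stmt_Module` (Tate package mod `p` + BAD_p, see `BadP.lean`,
`Concrete.lean`) and package C `Stmt_FreyFiniteAtP`.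
-/
import Fermat.Agent.S44.Wiring
import Fermat.Agent.S44.PlaceOver
import Fermat.Agent.S44.Concrete
import Fermat.Agent.S44.CycRam
import Fermat.Agent.L.H52_RecUncond
import Fermat.Agent.S41.H19_I3Final

set_option autoImplicit false

open WeierstrassCurve WeierstrassCurve.Affine WeierstrassCurve.Affine.Point
open scoped WeierstrassCurve.Affine

namespace Fermat.Agent.S44

/-- The Frey curve has non-zero discriminant. -/
theorem freyCurve_Δ_ne_zero (P : FreyPackage) : P.freyCurve.Δ ≠ 0 := by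
  rw [← Fermat.Agent.S04.H59.freyCurveInt_map P, WeierstrassCurve.map_Δ]
  simpa using Fermat.Agent.S04.H59.freyCurveInt_Δ_ne_zero P

/-- **Package E**: the Frey system is not Eisenstein. -/
theorem stmt_NonEis : Stmt_NonEis := by
  intro P W hW N hN hirr
  haveI : P.freyCurve.IsElliptic := ⟨isUnit_iff_ne_zero.mpr (freyCurve_Δ_ne_zero P)⟩
  have h := Fermat.Agent.S41.H19.stmt_I3 P.freyCurve W hW P.p N P.pp hN hirr
  by_contra hcon
  apply h
  intro ℓ hℓ hℓW hℓN hℓp
  by_contra hne
  exact hcon ⟨ℓ, hℓ, hℓW, hℓN, hℓp, hne⟩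

/-- **S44 from packages A and C only.**  The conclusion is the frozen statement S44. -/
theorem result_of_AC (hA : Stmt_Module) (hC : Stmt_FreyFiniteAtP)
    (P : FreyPackage) {N : ℕ} (hcond : P.IsConductorLevel N) (hpN : P.p ∣ N)
    (hirr : GaloisRepIsIrreducible (K := AlgebraicClosure ℚ) ℚ P.freyCurve P.p)
    (hmod : P.ModularRepOfLevel N) :
    ∃ M : ℕ, M ∣ N ∧ ¬ P.p ∣ M ∧ P.ModularRepOfLevel M :=
  result_of_inputs hA Fermat.Agent.L.H52.recovery hC stmt_PlaceOver stmt_NonEis
    P hcond hpN hirr hmod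

/-- **S44 from the three open leaves**: the Tate package mod `p` of `J₀(N)` (A1), the structure
of `J₀(N)[p]` at `p ∥ N` (A2 = BAD_p), and the local analysis of the Frey curve at `p` (C). -/
theorem result_of_leaves (h1 : Stmt_TateModP) (h2 : Stmt_BadP) (hC : Stmt_FreyFiniteAtP)
    (P : FreyPackage) {N : ℕ} (hcond : P.IsConductorLevel N) (hpN : P.p ∣ N)
    (hirr : GaloisRepIsIrreducible (K := AlgebraicClosure ℚ) ℚ P.freyCurve P.p)
    (hmod : P.ModularRepOfLevel N) :
    ∃ M : ℕ, M ∣ N ∧ ¬ P.p ∣ M ∧ P.ModularRepOfLevel M :=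
  result_of_AC (stmt_Module_of h1 h2 stmt_CycRam) hC P hcond hpN hirr hmod

end Fermat.Agent.S44
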