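/-
helper93, row 38 (S44), package A1: the Tate package mod `p` of `J₀(N)` from the torsion dictionary
of G-TOR (helper81 and team), the Betti package (helper20, helper76, helper21) and the
eigen-character (helper99).

* `exists_eigenvector_zmod` : a common eigenvector of integer matrices with integer eigenvalues
  over a field of characteristic `p` gives one over `ZMod p`.
* `jz_isContinuous`, `jz_eichlerShimura`, `jz_hasSupport` : the three clauses of `Stmt_TateModP`
  for `jzModule N p`, from `Stmt_TORc N p`, `Stmt_HK N p`, `Stmt_TorsUnram N p`, `Stmt_TorsES N p`.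
* `stmt_TateModP_of` : `Stmt_TateModP` from the packages of G-TOR / G-RED which are still open
  (`Stmt_DESC`, `Stmt_HK`, `AllRed`); everything else is wired in.
-/
import Fermat.Agent.S44.Concrete
import Fermat.Agent.GTor.H81_TatePiece
import Fermat.Agent.GTor.H77_TorsLift
import Fermat.Agent.GTor.Clo.A3
import Fermat.Agent.GTor.Clo.A4
import Fermat.Agent.GTor.Clo.A5
import Fermat.Agent.Betti.Basis
import Fermat.Agent.Betti.H76_MatrixRep
import Fermat.Agent.Betti.H21_AlgEig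
import Fermat.Agent.R.H99_EigenChar

set_option autoImplicit false

noncomputable section

namespace Fermat.Agent.S44

open AlgebraicCurve ModularCurve Fermat.Agent.GTor Fermat.Agent.Betti Fermat.Agent.GTor.H81

/-! ### Descent of eigenvectors to the prime field -/

/-- A common eigenvector over a field of characteristic `p` of a family of integer matrices, with
integer eigenvalues, gives a common eigenvector over `ZMod p`. -/
theorem exists_eigenvector_zmod {p : ℕ} (hp : p.Prime) {k : Type*} [Field k] [CharP k p]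
    {r : ℕ} {I : Type*} (Mat : I → Matrix (Fin r) (Fin r) ℤ) (c : I → ℤ)
    (v : Fin r → k) (hv : v ≠ 0)
    (h : ∀ i, ((Mat i).map (Int.cast : ℤ → k)).mulVec v = (c i : k) • v) :
    ∃ x : Fin r → ZMod p, x ≠ 0 ∧
      ∀ i, ((Mat i).map (Int.cast : ℤ → ZMod p)).mulVec x = (c i : ZMod p) • x := by
  haveI : Fact p.Prime := ⟨hp⟩
  letI : Algebra (ZMod p) k := ZMod.algebra k p
  obtain ⟨j, hj⟩ : ∃ j, v j ≠ 0 := by
    by_contra hcon
    push Not at hcon
    exact hv (funext hcon)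
  obtain ⟨φ, hφ⟩ := Module.Projective.exists_dual_ne_zero (ZMod p) hj
  have hcast : ∀ (n : ℤ) (y : k), φ ((n : k) * y) = (n : ZMod p) * φ y := by
    intro n y
    have : (n : k) * y = (n : ZMod p) • y := by
      rw [Algebra.smul_def, map_intCast]
    rw [this, map_smul, smul_eq_mul]
  refine ⟨fun a => φ (v a), fun h0 => hφ (congrFun h0 j), fun i => ?_⟩
  funext a
  have h1 := congrFun (h i) a
  simp only [Matrix.mulVec, dotProduct, Matrix.map_apply, Pi.smul_apply, smul_eq_mul] at h1 ⊢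
  rw [← hcast, ← h1, map_sum]
  exact Finset.sum_congr rfl fun b _ => (hcast _ _).symm

/-- An embedding of `ℚ̄` into `ℂ`. -/
theorem exists_embedding_complex : Nonempty (AlgebraicClosure ℚ →+* ℂ) := by
  have halg : Algebra.IsAlgebraic ℚ (AlgebraicClosure ℚ) := AlgebraicClosure.isAlgebraic ℚ
  exact ⟨((IsAlgClosed.lift : AlgebraicClosure ℚ →ₐ[ℚ] ℂ) : AlgebraicClosure ℚ →+* ℂ)⟩

/-! ### The three clauses -/

section Clauses

variable {N p : ℕ} [NeZero N]

theorem jz_torsion_pow (x : Jtor N p) : ∃ n : ℕ, p ^ n • (x : JZero N) = 0 := by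
  refine ⟨1, ?_⟩
  have := Pic0.mem_torsion.1 x.2
  rw [pow_one, ← natCast_zsmul]
  exact this

/-- The Hecke operator of `jzModule` at a good prime, on points. -/
theorem jz_T_apply {ℓ : ℕ} (hℓ : ℓ.Prime) (hℓN : ¬ ℓ ∣ N) (x : Jtor N p) :
    (jzModule N p).T ℓ x = heckeTor p (⟨ℓ, hℓ⟩ : Nat.Primes) x := by
  rw [jzModule.T_eq N p hℓ hℓN]
  rfl

theorem jz_gal_apply (σ : GQ) (x : Jtor N p) :
    (jzModule N p).gal σ x = JZero.torsionGaloisRep N p σ x := rfl

/-- **Clause 1**: `J₀(N)[p]` is finite, the Galois action factors through a number field, the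
Hecke operators commute with each other and with the Galois action. -/
theorem jz_isContinuous (hp : p.Prime) (hTOR : Stmt_TORc N p) (hHK : Stmt_HK N p) :
    (jzModule N p).IsContinuous := by
  obtain ⟨r, b, hb⟩ := Betti.stmt_basis N
  obtain ⟨M, -, hMT, -⟩ := Betti.H76.stmt_matrixRep N (∅ : Set ℕ) r b hb
  have hL : Stmt_torsLift N := H77.stmt_torsLift N
  obtain ⟨ι⟩ : Nonempty (AlgebraicClosure ℚ →+* ℂ) := exists_embedding_complex
  obtain ⟨E⟩ := nonempty_torIso hTOR ι
  have hn : p ≠ 0 := hp.ne_zero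
  haveI hfin : Finite (Jtor N p) := finite_Jtor hb hL hn E
  refine ⟨hfin, ?_, ?_, ?_⟩
  · -- continuity
    choose L hL1 hL2 using fun x : Jtor N p => stmt_GAL N (x : JZero N)
    refine ⟨⨆ x, L x, ?_, fun σ hσ => ?_⟩
    · haveI : ∀ x, FiniteDimensional ℚ (L x) := hL1
      exact IntermediateField.finiteDimensional_iSup_of_finite
    · refine LinearMap.ext fun x => ?_
      have hx : ∀ y : Jtor N p, (jzModule N p).gal σ y = y := fun y =>
        Subtype.ext (hL2 y σ fun z hz => hσ z ((le_iSup L y) hz))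
      exact hx x
  · -- the Hecke operators commute
    intro ℓ ℓ'
    by_cases h : ℓ.Prime ∧ ¬ ℓ ∣ N
    · by_cases h' : ℓ'.Prime ∧ ¬ ℓ' ∣ N
      · refine LinearMap.ext fun x => ?_
        have key : ∀ y : Jtor N p,
            heckeTor p (⟨ℓ, h.1⟩ : Nat.Primes) (heckeTor p (⟨ℓ', h'.1⟩ : Nat.Primes) y) =
              heckeTor p (⟨ℓ', h'.1⟩ : Nat.Primes) (heckeTor p (⟨ℓ, h.1⟩ : Nat.Primes) y) := by
          intro y
          apply (theta hb hL hn E).injective
          rw [theta_heckeTor hb hL hn E h.1 h.2 hHK _ (hMT ℓ h.1 h.2 (Set.notMem_empty ℓ)),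
            theta_heckeTor hb hL hn E h'.1 h'.2 hHK _ (hMT ℓ' h'.1 h'.2 (Set.notMem_empty ℓ')),
            theta_heckeTor hb hL hn E h'.1 h'.2 hHK _ (hMT ℓ' h'.1 h'.2 (Set.notMem_empty ℓ')),
            theta_heckeTor hb hL hn E h.1 h.2 hHK _ (hMT ℓ h.1 h.2 (Set.notMem_empty ℓ)),
            Matrix.mulVec_mulVec, Matrix.mulVec_mulVec]
          congr 1
          have hc : M (CuspForm.heckeAlgebra.T h.1 h.2 (Set.notMem_empty ℓ)) *
              M (CuspForm.heckeAlgebra.T h'.1 h'.2 (Set.notMem_empty ℓ')) =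
              M (CuspForm.heckeAlgebra.T h'.1 h'.2 (Set.notMem_empty ℓ')) *
                M (CuspForm.heckeAlgebra.T h.1 h.2 (Set.notMem_empty ℓ)) := by
            rw [← map_mul, ← map_mul, mul_comm]
          have := congrArg (fun A : Matrix (Fin r) (Fin r) ℤ =>
            (Int.castRingHom (ZMod p)).mapMatrix A) hc
          simpa only [map_mul, RingHom.mapMatrix_apply, Int.coe_castRingHom] using this
        exact ((jz_T_apply h.1 h.2 _).trans
          (congrArg (heckeTor p (⟨ℓ, h.1⟩ : Nat.Primes)) (jz_T_apply h'.1 h'.2 x))).trans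
          ((key x).trans ((jz_T_apply h'.1 h'.2 _).trans
            (congrArg (heckeTor p (⟨ℓ', h'.1⟩ : Nat.Primes)) (jz_T_apply h.1 h.2 x))).symm)
      · rw [jzModule.T_eq_zero N p h', mul_zero, zero_mul]
    · rw [jzModule.T_eq_zero N p h, mul_zero, zero_mul]
  · -- Galois commutes with Hecke
    intro σ ℓ
    by_cases h : ℓ.Prime ∧ ¬ ℓ ∣ N
    · refine LinearMap.ext fun x => ?_
      have key := heckeTor_gal (H2.stmt_GalHecke N) p (⟨ℓ, h.1⟩ : Nat.Primes) σ x
      exact (congrArg (JZero.torsionGaloisRep N p σ) (jz_T_apply h.1 h.2 x)).trans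
        (key.trans (jz_T_apply h.1 h.2 _).symm)
    · rw [jzModule.T_eq_zero N p h, mul_zero, zero_mul]

/-- **Clause 2**: unramified outside `N p` and the Eichler-Shimura relation. -/
theorem jz_eichlerShimura (hU : Stmt_TorsUnram N p) (hES : Stmt_TorsES N p) :
    (jzModule N p).EichlerShimura N := by
  intro ℓ hℓ hℓNp A hA
  have hℓN : ¬ ℓ ∣ N := fun h => hℓNp (h.mul_right p)
  have hℓp : ℓ ≠ p := fun h => hℓNp (h ▸ dvd_mul_left ℓ N)
  refine ⟨fun σ hσ => ?_, fun σ hσ => ?_⟩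
  · refine LinearMap.ext fun x => ?_
    have hx : ∀ y : Jtor N p, (jzModule N p).gal σ y = y := fun y =>
      Subtype.ext (hU ℓ hℓ hℓN hℓp A hA σ hσ (y : JZero N) (jz_torsion_pow y))
    exact hx x
  · refine LinearMap.ext fun x => ?_
    have hx : ∀ y : Jtor N p,
        JZero.torsionGaloisRep N p σ (JZero.torsionGaloisRep N p σ y)
          - heckeTor p (⟨ℓ, hℓ⟩ : Nat.Primes) (JZero.torsionGaloisRep N p σ y)
          + (ℓ : ZMod p) • y = 0 := by
      intro y
      have key := hES ℓ hℓ hℓN hℓp A hA σ hσ (y : JZero N) (jz_torsion_pow y)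
      rw [Nat.cast_smul_eq_nsmul]
      apply Subtype.ext
      rw [AddSubgroup.coe_zero, AddSubgroup.coe_add, AddSubgroup.coe_sub, AddSubgroup.coe_nsmul]
      exact key
    have e : (jzModule N p).T ℓ = heckeTors N p ⟨ℓ, hℓ⟩ := jzModule.T_eq N p hℓ hℓN
    rw [e]
    exact hx x

/-- **Clause 3**: every eigenform of level `N` has an eigenvector in `J₀(N)[p]`. -/
theorem jz_hasSupport (hp : p.Prime) (hTOR : Stmt_TORc N p) (hHK : Stmt_HK N p) :
    (jzModule N p).HasSupport N := by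
  intro f 𝔪 S t hf h𝔪 hp𝔪 hcong
  obtain ⟨r, b, hb⟩ := Betti.stmt_basis N
  -- the Hecke algebra away from `S ∪ {p}`
  set S' : Set ℕ := (↑S : Set ℕ) ∪ {p} with hS'
  obtain ⟨M, hMinj, hMT, -⟩ := Betti.H76.stmt_matrixRep N S' r b hb
  have hL : Stmt_torsLift N := H77.stmt_torsLift N
  obtain ⟨ι⟩ : Nonempty (AlgebraicClosure ℚ →+* ℂ) := exists_embedding_complex
  obtain ⟨E⟩ := nonempty_torIso hTOR ι
  have hn : p ≠ 0 := hp.ne_zero
  -- the eigen-character and its reduction
  obtain ⟨χ, hχ⟩ := Fermat.Agent.R.H99.stmt_eigenChar N S' f hf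
  haveI := h𝔪
  letI : Field (ZBar ⧸ 𝔪) := Ideal.Quotient.field 𝔪
  haveI : CharP (ZBar ⧸ 𝔪) p := by
    refine (CharP.charP_iff_prime_eq_zero hp).2 ?_
    have : ((p : ZBar) : ZBar ⧸ 𝔪) = 0 := Ideal.Quotient.eq_zero_iff_mem.2 hp𝔪
    simpa using this
  let χbar : CuspForm.heckeAlgebra N 2 S' →+* (ZBar ⧸ 𝔪) := (Ideal.Quotient.mk 𝔪).comp χ
  obtain ⟨v, hv, hvT⟩ := Betti.H21.exists_eigenvector M hMinj χbar
  -- the index set of good primes
  let I : Type := {ℓ : ℕ // ℓ.Prime ∧ ℓ ∉ S ∧ ¬ ℓ ∣ N ∧ ℓ ≠ p}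
  have hIS : ∀ i : I, (i : ℕ) ∉ S' := by
    intro i hi
    rcases hi with hi | hi
    · exact i.2.2.1 (by exact_mod_cast hi)
    · exact i.2.2.2.2 hi
  let Mat : I → Matrix (Fin r) (Fin r) ℤ := fun i =>
    M (CuspForm.heckeAlgebra.T i.2.1 i.2.2.2.1 (hIS i))
  have hχt : ∀ i : I, χbar (CuspForm.heckeAlgebra.T i.2.1 i.2.2.2.1 (hIS i)) =
      ((t i : ℤ) : ZBar ⧸ 𝔪) := by
    intro i
    obtain ⟨a, ha, ham⟩ := hcong i i.2.1 i.2.2.1 i.2.2.2.1 i.2.2.2.2
    have e : χ (CuspForm.heckeAlgebra.T i.2.1 i.2.2.2.1 (hIS i)) = a :=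
      Subtype.ext ((hχ i i.2.1 i.2.2.2.1 (hIS i)).trans ha.symm)
    show (Ideal.Quotient.mk 𝔪) (χ _) = _
    rw [e, ← map_intCast (Ideal.Quotient.mk 𝔪)]
    exact (Ideal.Quotient.mk_eq_mk_iff_sub_mem _ _).2 ham
  obtain ⟨x, hx, hxT⟩ := exists_eigenvector_zmod hp Mat (fun i => t i) v hv
    (fun i => by rw [← hχt i]; exact hvT _)
  -- back to `J₀(N)[p]`
  let y : Jtor N p := (theta hb hL hn E).symm x
  have hy : theta hb hL hn E y = x := (theta hb hL hn E).apply_symm_apply x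
  have hy0 : y ≠ 0 := by
    intro h0
    apply hx
    rw [← hy, h0, map_zero]
  refine ⟨y, hy0, fun ℓ hℓ hℓS hℓN hℓp => ?_⟩
  let i : I := ⟨ℓ, hℓ, hℓS, hℓN, hℓp⟩
  have key : heckeTor p (⟨ℓ, hℓ⟩ : Nat.Primes) y = ((t ℓ : ℤ) : ZMod p) • y := by
    apply (theta hb hL hn E).injective
    rw [theta_heckeTor hb hL hn E hℓ hℓN hHK (Mat i) (hMT ℓ hℓ hℓN (hIS i)), hy]
    have e2 : theta hb hL hn E (((t ℓ : ℤ) : ZMod p) • y) = ((t ℓ : ℤ) : ZMod p) • x := by
      rw [← hy]
      exact (thetaLin hb hL hn E).map_smul _ y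
    rw [e2]
    exact hxT i
  exact (jz_T_apply hℓ hℓN y).trans key

end Clauses

/-! ### Assembly -/

/-- The three clauses for one level and one prime. -/
theorem jz_tate {N p : ℕ} [NeZero N] (hp : p.Prime) (hTOR : Stmt_TORc N p) (hHK : Stmt_HK N p)
    (hU : Stmt_TorsUnram N p) (hES : Stmt_TorsES N p) :
    (jzModule N p).IsContinuous ∧ (jzModule N p).EichlerShimura N ∧ (jzModule N p).HasSupport N :=
  ⟨jz_isContinuous hp hTOR hHK, jz_eichlerShimura hU hES, jz_hasSupport hp hTOR hHK⟩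

/-- **Package A1** from the packages of G-TOR and G-RED which are still open: descent
(`Stmt_DESC`), Hecke compatibility of the torsion dictionary (`Stmt_HK`) and the reduction packages
(`AllRed`). -/
theorem stmt_TateModP_of
    (hD : ∀ (N : ℕ) [NeZero N] (p : ℕ), p.Prime → Stmt_DESC N p)
    (hHK : ∀ (N : ℕ) [NeZero N] (p : ℕ), p.Prime → Stmt_HK N p)
    (hRed : ∀ (N : ℕ) [NeZero N] (p : ℕ), p.Prime → AllRed N p) : Stmt_TateModP := by
  intro p hp _ N _
  exact jz_tate hp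
    (stmt_TORc N p hp.ne_zero (Clo.stmt_A3 N) (Clo.stmt_A4 N) (Clo.stmt_A5 N) (hD N p hp))
    (hHK N p hp) (torsUnram_of_red hp (hRed N p hp)) (torsES_of_red hp (hRed N p hp))

end Fermat.Agent.S44
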