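/-
helper93, row 38 (S44): the wiring with package A1 (Tate package mod `p`) plugged in.

`result_of_open` : the frozen statement S44 from
* the open packages of G-TOR / G-RED (`Stmt_DESC`, `Stmt_HK`, `AllRed`), which give A1;
* `Stmt_BadP` (A2 = BAD_p);
* `Stmt_FreyFiniteAtP` (C).
-/
import Fermat.Agent.S44.Final
import Fermat.Agent.S44.TateModP

set_option autoImplicit false

open WeierstrassCurve WeierstrassCurve.Affine WeierstrassCurve.Affine.Point
open scoped WeierstrassCurve.Affine

namespace Fermat.Agent.S44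

open Fermat.Agent.GTor Fermat.Agent.GTor.H81 in
/-- **S44 from the open packages.**  The conclusion is the frozen statement S44. -/
theorem result_of_open
    (hD : ∀ (N : ℕ) [NeZero N] (p : ℕ), p.Prime → Stmt_DESC N p)
    (hHK : ∀ (N : ℕ) [NeZero N] (p : ℕ), p.Prime → Stmt_HK N p)
    (hRed : ∀ (N : ℕ) [NeZero N] (p : ℕ), p.Prime → AllRed N p)
    (h2 : Stmt_BadP) (hC : Stmt_FreyFiniteAtP)
    (P : FreyPackage) {N : ℕ} (hcond : P.IsConductorLevel N) (hpN : P.p ∣ N)
    (hirr : GaloisRepIsIrreducible (K := AlgebraicClosure ℚ) ℚ P.freyCurve P.p)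
    (hmod : P.ModularRepOfLevel N) :
    ∃ M : ℕ, M ∣ N ∧ ¬ P.p ∣ M ∧ P.ModularRepOfLevel M :=
  result_of_leaves (stmt_TateModP_of hD hHK hRed) h2 hC P hcond hpN hirr hmod

end Fermat.Agent.S44
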