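/-
helper93, row 38 (S44), package A1 with the finished packages of G-TOR plugged in:
descent (helper75, `GTor.H75.stmt_DESC`) and Hecke compatibility (helper44, `GTor.H44.stmt_HK`).

* `jz_torc`            : the torsion dictionary `Stmt_TORc N p`, unconditional;
* `jz_isContinuous_uncond`, `jz_hasSupport_uncond` : clauses 1 and 3 of A1, unconditional;
* `stmt_TateModP_of_red` : `Stmt_TateModP` from the reduction packages `AllRed` of G-RED alone;
* `result_of_red`      : the frozen statement S44 from `AllRed`, `Stmt_BadP`, `Stmt_FreyFiniteAtP`.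
-/
import Fermat.Agent.S44.Final2
import Fermat.Agent.GTor.H75_DescFinal
import Fermat.Agent.GTor.H44_HK

set_option autoImplicit false

open WeierstrassCurve WeierstrassCurve.Affine WeierstrassCurve.Affine.Point
open scoped WeierstrassCurve.Affine

namespace Fermat.Agent.S44

open Fermat.Agent.GTor Fermat.Agent.GTor.H81

/-- The torsion dictionary of `J₀(N)` at a prime `p`. -/
theorem jz_torc (N p : ℕ) [NeZero N] (hp : p.Prime) : Stmt_TORc N p :=
  stmt_TORc N p hp.ne_zero (Clo.stmt_A3 N) (Clo.stmt_A4 N) (Clo.stmt_A5 N)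
    (H75.stmt_DESC N p hp.ne_zero)

/-- `J₀(N)[p]` is finite, the Galois action factors through a number field, the Hecke operators
commute with each other and with the Galois action. -/
theorem jz_isContinuous_uncond (N p : ℕ) [NeZero N] (hp : p.Prime) :
    (jzModule N p).IsContinuous :=
  jz_isContinuous hp (jz_torc N p hp) (H44.stmt_HK N p)

/-- Every eigenform of level `N` has an eigenvector in `J₀(N)[p]`. -/
theorem jz_hasSupport_uncond (N p : ℕ) [NeZero N] (hp : p.Prime) :
    (jzModule N p).HasSupport N :=
  jz_hasSupport hp (jz_torc N p hp) (H44.stmt_HK N p)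

/-- **Package A1** from the reduction packages of G-RED. -/
theorem stmt_TateModP_of_red
    (hRed : ∀ (N : ℕ) [NeZero N] (p : ℕ), p.Prime → AllRed N p) : Stmt_TateModP :=
  stmt_TateModP_of (fun N _ p hp => H75.stmt_DESC N p hp.ne_zero)
    (fun N _ p _ => H44.stmt_HK N p) hRed

/-- **S44 from the open packages**: the reduction packages of G-RED, BAD_p and the local analysis
of the Frey curve at `p`.  The conclusion is the frozen statement S44. -/
theorem result_of_red
    (hRed : ∀ (N : ℕ) [NeZero N] (p : ℕ), p.Prime → AllRed N p)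
    (h2 : Stmt_BadP) (hC : Stmt_FreyFiniteAtP)
    (P : FreyPackage) {N : ℕ} (hcond : P.IsConductorLevel N) (hpN : P.p ∣ N)
    (hirr : GaloisRepIsIrreducible (K := AlgebraicClosure ℚ) ℚ P.freyCurve P.p)
    (hmod : P.ModularRepOfLevel N) :
    ∃ M : ℕ, M ∣ N ∧ ¬ P.p ∣ M ∧ P.ModularRepOfLevel M :=
  result_of_leaves (stmt_TateModP_of_red hRed) h2 hC P hcond hpN hirr hmod

end Fermat.Agent.S44
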