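/-
helper93, row 38 (S44): package A1 is now UNCONDITIONAL (G-RED finished: `RED.H36.allRed`).

* `allRed_uncond`   : the reduction packages at every level;
* `stmt_TateModP`   : `Stmt_TateModP`, unconditional (also the input of the S43 wiring);
* `result_of_badP`  : the frozen statement S44 from `Stmt_BadP` and `Stmt_FreyFiniteAtP` alone.
-/
import Fermat.Agent.S44.TateModP2
import Fermat.Agent.RED.H36_AllRed

set_option autoImplicit false

open WeierstrassCurve WeierstrassCurve.Affine WeierstrassCurve.Affine.Point
open scoped WeierstrassCurve.Affine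

namespace Fermat.Agent.S44

open Fermat.Agent.GTor Fermat.Agent.GTor.H81

/-- The reduction packages of G-RED at every level, in the shape used by G-TOR. -/
theorem allRed_uncond (N : ℕ) [NeZero N] (p : ℕ) (_hp : p.Prime) : AllRed N p := by
  intro ℓ hℓ hNp A hA
  have : NeZero ℓ := ⟨hℓ.ne_zero⟩
  exact Fermat.Agent.RED.H36.allRed N p ℓ hℓ hNp A hA

/-- **Package A1**, unconditional. -/
theorem stmt_TateModP : Stmt_TateModP :=
  stmt_TateModP_of_red (fun N _ p hp => allRed_uncond N p hp)

/-- **S44 from the two open packages**: BAD_p and the local analysis of the Frey curve at `p`.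
The conclusion is the frozen statement S44. -/
theorem result_of_badP
    (h2 : Stmt_BadP) (hC : Stmt_FreyFiniteAtP)
    (P : FreyPackage) {N : ℕ} (hcond : P.IsConductorLevel N) (hpN : P.p ∣ N)
    (hirr : GaloisRepIsIrreducible (K := AlgebraicClosure ℚ) ℚ P.freyCurve P.p)
    (hmod : P.ModularRepOfLevel N) :
    ∃ M : ℕ, M ∣ N ∧ ¬ P.p ∣ M ∧ P.ModularRepOfLevel M :=
  result_of_leaves stmt_TateModP h2 hC P hcond hpN hirr hmod

end Fermat.Agent.S44
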