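/-
helper93, row 38 (S44): the closing theorem.  `NOTES/plan/L_S44.md` §12, §13.

frozen S44  ⇐  the leaves

* (c)  `S43.Old.Stmt_OldRed`, `RED.H51.Stmt_HRcore`            (helper75's `stmt_OldP_of`)
* (d)  `BADP.Stmt_HDropP`; `BADP.Stmt_EisMod` applied to `Stmt_ModPlusP`, `Stmt_K0LiftP`,
       `Stmt_KumCmp`, `Stmt_KumW`, `Stmt_EisAbs`, `Stmt_EisAbsTame`
* (e)  `S44.Stmt_GoodRoot`; `BADP.Stmt_RayMod` applied to `Stmt_ModP`, `Stmt_K0LiftP`,
       `Stmt_KumFix`, `Stmt_KumW`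
* (C)  `S44.C.H33.stmt_FreyFiniteAtP`                           (DONE)
-/
import Fermat.Agent.BADP.EisMod
import Fermat.Agent.S43.Old.FinalP
import Fermat.Agent.S44.C.H33_Main

set_option autoImplicit false
set_option synthInstance.maxHeartbeats 400000
set_option maxHeartbeats 1000000

noncomputable section

open AlgebraicCurve ModularCurve

namespace Fermat.Agent.S44

open Fermat.Agent.BADP

/-- `Stmt_ModPlusP` gives `Stmt_ModP`. -/
theorem stmt_ModP_of_plus (h : Stmt_ModPlusP) : Stmt_ModP := by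
  intro p hp5 M a b hab hp _ A hA
  have : NeZero p := ⟨hp.ne_zero⟩
  obtain ⟨S, hS⟩ := h p hp5 M a b hab hp A hA
  exact ⟨S, hS.datum⟩

open WeierstrassCurve WeierstrassCurve.Affine WeierstrassCurve.Affine.Point in
open scoped WeierstrassCurve.Affine in
/-- **S44 from the leaves.**  The conclusion is the frozen statement S44. -/
theorem result_of_leaves4
    (hOR : Fermat.Agent.S43.Old.Stmt_OldRed) (hcore : Fermat.Agent.RED.H51.Stmt_HRcore)
    (hDrop : Stmt_HDropP)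
    (hMod : Stmt_ModPlusP) (hK0 : Stmt_K0LiftP)
    (hCmp : Stmt_KumCmp) (hFix : Stmt_KumFix) (hW : Stmt_KumW)
    (hEisAbs : Stmt_EisAbs) (hEisTame : Stmt_EisAbsTame) (hEisMod : Stmt_EisMod)
    (hRayMod : Stmt_RayMod) (hRoot : Stmt_GoodRoot)
    (P : FreyPackage) {N : ℕ} (hcond : P.IsConductorLevel N) (hpN : P.p ∣ N)
    (hirr : GaloisRepIsIrreducible (K := AlgebraicClosure ℚ) ℚ P.freyCurve P.p)
    (hmod : P.ModularRepOfLevel N) :
    ∃ M : ℕ, M ∣ N ∧ ¬ P.p ∣ M ∧ P.ModularRepOfLevel M :=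
  result_of_leavesP (Fermat.Agent.S43.Old.stmt_OldP_of hOR hcore)
    (stmt_SlopeP_of (hEisMod hMod hK0 hCmp hW hEisAbs hEisTame) hDrop)
    (stmt_RayP_of_rayK3x (hRayMod (stmt_ModP_of_plus hMod) hK0 hFix hW) hRoot)
    Fermat.Agent.S44.C.H33.stmt_FreyFiniteAtP P hcond hpN hirr hmod

end Fermat.Agent.S44
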