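/-
helper93, row 38 (S44): the closing theorem with the landed leaves plugged in.
`NOTES/plan/L_S44.md` §13.

Plugged in: H-DROP (helper74), MOD-P+ (helper33), EIS-ABS tame (helper66) with NODE-VAL
(helper38), GOOD-ROOT (helper66), (C) (helper33).
-/
import Fermat.Agent.S44.Final4
import Fermat.Agent.S44.H66_GoodRoot
import Fermat.Agent.BADP.H74_HDrop
import Fermat.Agent.BADP.H33_ModFinal
import Fermat.Agent.BADP.H66_EisTame
import Fermat.Agent.BADP.H38_EisNode

set_option autoImplicit false
set_option synthInstance.maxHeartbeats 400000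
set_option maxHeartbeats 1000000

noncomputable section

open AlgebraicCurve ModularCurve

namespace Fermat.Agent.S44

open Fermat.Agent.BADP

open WeierstrassCurve WeierstrassCurve.Affine WeierstrassCurve.Affine.Point in
open scoped WeierstrassCurve.Affine in
/-- **S44 from the open leaves** (state 03:45Z).  The conclusion is the frozen statement S44. -/
theorem result_of_open5
    (hOR : Fermat.Agent.S43.Old.Stmt_OldRed) (hcore : Fermat.Agent.RED.H51.Stmt_HRcore)
    (hK0 : Stmt_K0LiftP)
    (hCmp : Stmt_KumCmp) (hFix : Stmt_KumFix) (hW : Stmt_KumW)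
    (hEisAbs : Stmt_EisAbs) (hEisMod : Stmt_EisMod)
    (hRayMod : Stmt_RayMod)
    (P : FreyPackage) {N : ℕ} (hcond : P.IsConductorLevel N) (hpN : P.p ∣ N)
    (hirr : GaloisRepIsIrreducible (K := AlgebraicClosure ℚ) ℚ P.freyCurve P.p)
    (hmod : P.ModularRepOfLevel N) :
    ∃ M : ℕ, M ∣ N ∧ ¬ P.p ∣ M ∧ P.ModularRepOfLevel M :=
  result_of_leaves4 hOR hcore Fermat.Agent.BADP.H74.stmt_HDropP
    Fermat.Agent.BADP.H33.stmt_ModPlusP hK0 hCmp hFix hW hEisAbs
    (Fermat.Agent.BADP.H66.stmt_EisAbsTame_of Fermat.Agent.BADP.H38.stmt_NodeVal)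
    hEisMod hRayMod Fermat.Agent.S44.H66.stmt_GoodRoot P hcond hpN hirr hmod

end Fermat.Agent.S44
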