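/-
helper93, row 38 (S44): the closing theorem with ALL landed leaves plugged in; the only
hypothesis left is EIS-MOD (`BADP.Stmt_EisMod`).  `NOTES/plan/L_S44.md` §13.

Plugged in: (c) OLD (helper75, helper35, helper78), H-DROP (helper74), MOD-P+ (helper33),
ARITH-0 (helper11), KUM (helper57), EIS-ABS wild (helper97), EIS-ABS tame (helper66), NODE-VAL
(helper38), RAY-MOD (helper15), GOOD-ROOT (helper66), (C) (helper33).
-/
import Fermat.Agent.S44.Final5
import Fermat.Agent.S43.Old.OldDone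
import Fermat.Agent.BADP.H11_K0LiftP
import Fermat.Agent.BADP.H57_Kum
import Fermat.Agent.BADP.H97_EisFinal
import Fermat.Agent.BADP.H15_RayMod

set_option autoImplicit false
set_option synthInstance.maxHeartbeats 400000
set_option maxHeartbeats 1000000

noncomputable section

open AlgebraicCurve ModularCurve

namespace Fermat.Agent.S44

open Fermat.Agent.BADP

/-- (e) RAY, unconditional. -/
theorem stmt_RayP_done : Stmt_RayP :=
  stmt_RayP_of_rayK3x
    (Fermat.Agent.BADP.H15.stmt_RayMod (stmt_ModP_of_plus Fermat.Agent.BADP.H33.stmt_ModPlusP)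
      Fermat.Agent.BADP.H11.stmt_K0LiftP Fermat.Agent.BADP.H57.stmt_KumFix
      Fermat.Agent.BADP.H57.stmt_KumW)
    Fermat.Agent.S44.H66.stmt_GoodRoot

/-- (d) SLOPE from EIS-MOD. -/
theorem stmt_SlopeP_of_eisMod (hEisMod : Stmt_EisMod) : Stmt_SlopeP :=
  stmt_SlopeP_of
    (hEisMod Fermat.Agent.BADP.H33.stmt_ModPlusP Fermat.Agent.BADP.H11.stmt_K0LiftP
      Fermat.Agent.BADP.H57.stmt_KumCmp Fermat.Agent.BADP.H57.stmt_KumW
      Fermat.Agent.BADP.H97.stmt_EisAbs
      (Fermat.Agent.BADP.H66.stmt_EisAbsTame_of Fermat.Agent.BADP.H38.stmt_NodeVal))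
    Fermat.Agent.BADP.H74.stmt_HDropP

open WeierstrassCurve WeierstrassCurve.Affine WeierstrassCurve.Affine.Point in
open scoped WeierstrassCurve.Affine in
/-- **S44 from EIS-SLOPE** (`BADP.Stmt_EisSlopeP`).  The conclusion is the frozen statement. -/
theorem result_of_eisSlope (hEis : Stmt_EisSlopeP)
    (P : FreyPackage) {N : ℕ} (hcond : P.IsConductorLevel N) (hpN : P.p ∣ N)
    (hirr : GaloisRepIsIrreducible (K := AlgebraicClosure ℚ) ℚ P.freyCurve P.p)
    (hmod : P.ModularRepOfLevel N) :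
    ∃ M : ℕ, M ∣ N ∧ ¬ P.p ∣ M ∧ P.ModularRepOfLevel M :=
  result_of_leavesP Fermat.Agent.S43.Old.stmt_OldP_done
    (stmt_SlopeP_of hEis Fermat.Agent.BADP.H74.stmt_HDropP)
    stmt_RayP_done
    Fermat.Agent.S44.C.H33.stmt_FreyFiniteAtP P hcond hpN hirr hmod

open WeierstrassCurve WeierstrassCurve.Affine WeierstrassCurve.Affine.Point in
open scoped WeierstrassCurve.Affine in
/-- **S44 from EIS-MOD.**  The conclusion is the frozen statement S44. -/
theorem result_of_eisMod (hEisMod : Stmt_EisMod)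
    (P : FreyPackage) {N : ℕ} (hcond : P.IsConductorLevel N) (hpN : P.p ∣ N)
    (hirr : GaloisRepIsIrreducible (K := AlgebraicClosure ℚ) ℚ P.freyCurve P.p)
    (hmod : P.ModularRepOfLevel N) :
    ∃ M : ℕ, M ∣ N ∧ ¬ P.p ∣ M ∧ P.ModularRepOfLevel M :=
  result_of_leavesP Fermat.Agent.S43.Old.stmt_OldP_done (stmt_SlopeP_of_eisMod hEisMod)
    stmt_RayP_done
    Fermat.Agent.S44.C.H33.stmt_FreyFiniteAtP P hcond hpN hirr hmod

end Fermat.Agent.S44
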