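/-
helper93, row 38 (S44): BAD_p for `p ≥ 5`, unconditional (by-products of the proof of S44, for the
general forms S39 / S40 and for S59-LL).  `NOTES/plan/L_S44.md` §14, `NOTES/plan/L_S39.md`.

* `stmt_SlopeP_done : Stmt_SlopeP`, `stmt_BadP2_done : Stmt_BadP2`
* `removesP_ge5` : Mazur's principle at `p ≥ 5` for `J₀(N)[p]`, `p ∥ N` (module form).
-/
import Fermat.Agent.S44.Final6
import Fermat.Agent.BADP.H18_EisMod

set_option autoImplicit false
set_option synthInstance.maxHeartbeats 400000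
set_option maxHeartbeats 1000000

noncomputable section

open AlgebraicCurve ModularCurve

namespace Fermat.Agent.S44

open Fermat.Agent.BADP

/-- (d) SLOPE, unconditional (`p ≥ 5`). -/
theorem stmt_SlopeP_done : Stmt_SlopeP :=
  stmt_SlopeP_of_eisMod Fermat.Agent.BADP.H18E.stmt_EisMod

/-- **BAD_p for `p ≥ 5`**, unconditional. -/
theorem stmt_BadP2_done : Stmt_BadP2 :=
  stmt_BadP2_of_leaves Fermat.Agent.S43.Old.stmt_OldP_done stmt_SlopeP_done stmt_RayP_done

/-- **Mazur's principle at `p ≥ 5`**, module form, unconditional. -/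
theorem removesP_ge5 (p : ℕ) (hp : p.Prime) (hp5 : 5 ≤ p) (N : ℕ) [NeZero N] (hpN : p ∣ N)
    (hp2N : ¬ p ^ 2 ∣ N) (A : ValuationSubring (AlgebraicClosure ℚ)) (hA : A.LiesOverPrime p) :
    (jzModule N p).RemovesP N A :=
  removesP_of_badStructure (jzModule N p) N A (stmt_BadP2_done p hp hp5 N hpN hp2N A hA)

end Fermat.Agent.S44
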